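import Fermat.Agent.H27.Igusa.Defs

/-!
# Formal Hecke polynomials over `k((t))` (project P-IGUSA, piece IG-M)

`PhiF`, `PsiF`, `LF` are the three polynomials in `Y` with coefficients in `k((t))` whose
coefficients have to be shown to be integral polynomials in `j(t^p)`.
`PolyInJ` is the interface between the formal side and the analytic side.
-/

set_option autoImplicit false

noncomputable section

open ModularCurve Polynomial Fermat.Agent.H27

namespace Fermat.Agent.H91

variable {k : Type*} [CommRing k]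

/-- `∏_g (Y - r_g)` over the `p+1` formal conjugates `r_g` of `j(t^{p²})` over `j(t^p)`. -/
def PhiF (p : ℕ) [NeZero p] (ζ : kˣ) : Polynomial (LaurentSeries k) :=
  (X - C (rootInf k p)) * ∏ b ∈ Finset.range p, (X - C (rootFin (ζ ^ b)))

/-- `∏_g (Y - u_g)` over the `p+1` formal conjugates `u_g` of the unit `p^12 Δ(t^{p²})/Δ(t^p)`. -/
def PsiF (p : ℕ) [NeZero p] (ζ : kˣ) : Polynomial (LaurentSeries k) :=
  (X - C (unitInf k p)) * ∏ b ∈ Finset.range p, (X - C (unitFin p (ζ ^ b)))

/-- The Lagrange numerator `Σ_g u_g ∏_{h ≠ g} (Y - r_h)`. -/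
def LF (p : ℕ) [NeZero p] (ζ : kˣ) : Polynomial (LaurentSeries k) :=
  C (unitInf k p) * ∏ b ∈ Finset.range p, (X - C (rootFin (ζ ^ b))) +
    (X - C (rootInf k p)) * ∑ b ∈ Finset.range p, C (unitFin p (ζ ^ b)) *
      ∏ h ∈ (Finset.range p).erase b, (X - C (rootFin (ζ ^ h)))

/-- Every coefficient of `F` is a polynomial (with coefficients in the field `K`) in `j(t^p)`. -/
def PolyInJ {K : Type*} [Field K] (p : ℕ) [NeZero p] (F : Polynomial (LaurentSeries K)) : Prop :=
  ∀ i : ℕ, ∃ P : Polynomial K, F.coeff i = Polynomial.aeval (baseS K p) P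

end Fermat.Agent.H91
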