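import Mathlib
import Fermat.Agent.H27.Igusa.Track
import Fermat.Agent.H67.IgusaTransfer
import Fermat.Agent.H76.IgusaLocal
import Fermat.Prelude.Def_ModularCurve_X0ModL
import Fermat.Agent.H91.HeckeFormalDefs

set_option autoImplicit false

noncomputable section

open ModularCurve Polynomial Fermat.Agent.H27

namespace Fermat.Agent.H91

section ResComp

variable {R : Type*} [CommRing R]

/-- The `s`-th residue component of `f`: `Σ_n f_{pn+s} q^n`. -/
def resComp (p : ℕ) [NeZero p] (s : ℤ) (f : LaurentSeries R) : LaurentSeries R :=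
  HahnSeries.ofSuppBddBelow (fun n => f.coeff ((p : ℤ) * n + s))
    ⟨min 0 (f.order - s), by
      intro n hn
      by_contra hlt
      rw [not_le] at hlt
      apply hn
      apply HahnSeries.coeff_eq_zero_of_lt_order
      have h1 : n < 0 := lt_of_lt_of_le hlt (min_le_left _ _)
      have h2 : n < f.order - s := lt_of_lt_of_le hlt (min_le_right _ _)
      have hp : (1 : ℤ) ≤ p := by exact_mod_cast Nat.one_le_iff_ne_zero.mpr (NeZero.ne p)
      nlinarith⟩

@[simp] theorem resComp_coeff (p : ℕ) [NeZero p] (s : ℤ) (f : LaurentSeries R) (n : ℤ) :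
    (resComp p s f).coeff n = f.coeff ((p : ℤ) * n + s) := rfl

theorem coeff_mul_single_one (f : LaurentSeries R) (j n : ℤ) :
    (f * HahnSeries.single j (1 : R)).coeff n = f.coeff (n - j) := by
  have h := HahnSeries.coeff_mul_single_add (x := f) (r := (1 : R)) (a := n - j) (b := j)
  rw [sub_add_cancel, mul_one] at h
  exact h

theorem coeff_single_one_mul (f : LaurentSeries R) (j n : ℤ) :
    (HahnSeries.single j (1 : R) * f).coeff n = f.coeff (n - j) := by
  rw [mul_comm, coeff_mul_single_one]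

theorem resComp_mul_single (p : ℕ) [NeZero p] (s j : ℤ) (f : LaurentSeries R) :
    resComp p s (f * HahnSeries.single j (1 : R)) = resComp p (s - j) f := by
  ext n
  rw [resComp_coeff, resComp_coeff, coeff_mul_single_one]
  congr 1
  ring

/-- decomposition of a Laurent series into its `p` residue components -/
theorem sum_single_mul_qExpand_resComp (p : ℕ) [NeZero p] (g : LaurentSeries R) :
    ∑ i ∈ Finset.range p, HahnSeries.single (i : ℤ) (1 : R) * qExpand R p (resComp p i g) = g := by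
  ext n
  have hp : (0 : ℤ) < p := by exact_mod_cast Nat.pos_of_ne_zero (NeZero.ne p)
  rw [HahnSeries.coeff_sum]
  have hmod : (n % (p : ℤ)).toNat ∈ Finset.range p := by
    rw [Finset.mem_range]
    have h1 := Int.emod_lt_of_pos n hp
    have h0 := Int.emod_nonneg n hp.ne'
    omega
  rw [Finset.sum_eq_single_of_mem _ hmod]
  · rw [coeff_single_one_mul]
    have h0 := Int.emod_nonneg n hp.ne'
    rw [Int.toNat_of_nonneg h0]
    have : n - n % (p : ℤ) = (p : ℤ) * (n / p) := by
      have := Int.emod_add_mul_ediv n p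
      linarith
    rw [this, qExpand_coeff_mul, resComp_coeff]
    congr 1
    have := Int.emod_add_mul_ediv n p
    linarith
  · intro i _ hi
    rw [coeff_single_one_mul]
    apply qExpand_coeff_of_not_dvd
    intro hdvd
    apply hi
    have h0 := Int.emod_nonneg n hp.ne'
    have h1 : (n - i) % (p : ℤ) = 0 := Int.emod_eq_zero_of_dvd hdvd
    have h2 : n % (p : ℤ) = (i : ℤ) % p := by
      have := Int.emod_emod_of_dvd n (dvd_refl (p : ℤ))
      have h3 : n = (n - i) + i := by ring
      rw [h3, Int.add_emod, h1, zero_add, Int.emod_emod_of_dvd _ (dvd_refl _)]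
    have hi' : i < p := Finset.mem_range.mp ‹_›
    have h4 : (i : ℤ) % p = i := Int.emod_eq_of_lt (by positivity) (by exact_mod_cast hi')
    rw [h2, h4]
    simp

theorem coeffMap_resComp {S : Type*} [CommRing S] (φ : R →+* S) (p : ℕ) [NeZero p] (s : ℤ)
    (f : LaurentSeries R) : coeffMap φ (resComp p s f) = resComp p s (coeffMap φ f) := by
  ext n
  simp

/-- matrix of multiplication by `f` on `R((t))` over `R((t^p))` in the basis `1, t, …, t^{p-1}` -/
def regMat (p : ℕ) [NeZero p] (f : LaurentSeries R) :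
    Matrix (Fin p) (Fin p) (LaurentSeries R) :=
  fun i j => resComp p (((i : ℕ) : ℤ) - ((j : ℕ) : ℤ)) f

theorem sum_single_mul_regMat (p : ℕ) [NeZero p] (f : LaurentSeries R) (j : Fin p) :
    ∑ i : Fin p, HahnSeries.single (((i : ℕ) : ℤ)) (1 : R) * qExpand R p (regMat p f i j) =
      f * HahnSeries.single (((j : ℕ) : ℤ)) (1 : R) := by
  have h := sum_single_mul_qExpand_resComp p (f * HahnSeries.single (((j : ℕ) : ℤ)) (1 : R))
  rw [Finset.sum_range] at h
  rw [← h]
  refine Finset.sum_congr rfl fun i _ => ?_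
  rw [resComp_mul_single]
  rfl

theorem regMat_coeffMap {S : Type*} [CommRing S] (φ : R →+* S) (p : ℕ) [NeZero p]
    (f : LaurentSeries R) : regMat p (coeffMap φ f) = (regMat p f).map (coeffMap φ) := by
  ext i j : 2
  simp only [regMat, Matrix.map_apply]
  rw [coeffMap_resComp]

end ResComp

section TraceAdj

variable {S : Type*} [CommRing S] {n : Type*} [Fintype n] [DecidableEq n]

theorem trace_conj_mul_adjugate_conj (V W U Z : Matrix n n S) (hVW : V * W = 1) :
    Matrix.trace ((V * U * W) * Matrix.adjugate (V * Z * W)) =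
      Matrix.trace (U * Matrix.adjugate Z) := by
  have hdet : W.det * V.det = 1 := by
    rw [mul_comm, ← Matrix.det_mul, hVW, Matrix.det_one]
  rw [Matrix.adjugate_mul_distrib, Matrix.adjugate_mul_distrib]
  have h1 : V * U * W * (Matrix.adjugate W * (Matrix.adjugate Z * Matrix.adjugate V))
      = W.det • (V * (U * Matrix.adjugate Z * Matrix.adjugate V)) := by
    calc V * U * W * (Matrix.adjugate W * (Matrix.adjugate Z * Matrix.adjugate V))
        = V * U * (W * Matrix.adjugate W) * (Matrix.adjugate Z * Matrix.adjugate V) := by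
          simp only [Matrix.mul_assoc]
      _ = W.det • (V * (U * Matrix.adjugate Z * Matrix.adjugate V)) := by
          rw [Matrix.mul_adjugate]
          simp only [Matrix.mul_smul, Matrix.smul_mul, Matrix.mul_one, Matrix.mul_assoc]
  rw [h1, Matrix.trace_smul, Matrix.trace_mul_comm, Matrix.mul_assoc, Matrix.adjugate_mul,
    Matrix.mul_smul, Matrix.mul_one, Matrix.trace_smul, smul_eq_mul, smul_eq_mul, ← mul_assoc,
    hdet, one_mul]

theorem charmatrix_conj {R : Type*} [CommRing R] (V W D : Matrix n n R) (hVW : V * W = 1) :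
    Matrix.charmatrix (V * D * W) =
      (C : R →+* R[X]).mapMatrix V * Matrix.charmatrix D * (C : R →+* R[X]).mapMatrix W := by
  have h1 : (C : R →+* R[X]).mapMatrix V * (C : R →+* R[X]).mapMatrix W = 1 := by
    rw [← map_mul, hVW, map_one]
  have hcomm : (C : R →+* R[X]).mapMatrix V * Matrix.scalar n (X : R[X]) =
      Matrix.scalar n (X : R[X]) * (C : R →+* R[X]).mapMatrix V :=
    ((Matrix.scalar_commute (X : R[X]) (fun r => Commute.all _ _) _).eq).symm
  rw [Matrix.charmatrix, Matrix.charmatrix, map_mul, map_mul, mul_sub, sub_mul, hcomm,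
    mul_assoc (Matrix.scalar n (X : R[X])), h1, mul_one]

end TraceAdj

section Diag

variable {K : Type*} [Field K]

/-- the Vandermonde nodes `ζ^b t` -/
def vnode (p : ℕ) (ζ : Kˣ) (b : Fin p) : LaurentSeries K :=
  twist (ζ ^ (b : ℕ)) (HahnSeries.single (1 : ℤ) (1 : K))

theorem vnode_pow (p : ℕ) (ζ : Kˣ) (b : Fin p) (i : ℕ) :
    vnode p ζ b ^ i = twist (ζ ^ (b : ℕ)) (HahnSeries.single (i : ℤ) (1 : K)) := by
  rw [vnode, ← map_pow, HahnSeries.single_pow]
  simp

theorem vnode_injective (p : ℕ) (ζ : Kˣ) (hζ : IsPrimitiveRoot (ζ : K) p) :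
    Function.Injective (vnode p ζ) := by
  intro b b' h
  have h1 := congrArg (fun x => HahnSeries.coeff x (1 : ℤ)) h
  simp only [vnode, twist_coeff, zpow_one, HahnSeries.coeff_single_same, mul_one] at h1
  have h2 : (ζ : K) ^ (b : ℕ) = (ζ : K) ^ (b' : ℕ) := by
    simpa using h1
  exact Fin.ext (hζ.pow_inj b.2 b'.2 h2)

theorem vandermonde_mul_regMat (p : ℕ) [NeZero p] (ζ : Kˣ) (hζ : ζ ^ p = 1)
    (f : LaurentSeries K) :
    Matrix.vandermonde (vnode p ζ) * (regMat p f).map (qExpand K p) =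
      Matrix.diagonal (fun b : Fin p => twist (ζ ^ (b : ℕ)) f) * Matrix.vandermonde (vnode p ζ) := by
  apply Matrix.ext
  intro b j
  rw [Matrix.mul_apply, Matrix.diagonal_mul]
  simp only [Matrix.vandermonde_apply, Matrix.map_apply, vnode_pow]
  have hb : (ζ ^ (b : ℕ)) ^ p = 1 := by
    rw [← pow_mul, mul_comm, pow_mul, hζ, one_pow]
  have h := congrArg (twist (ζ ^ (b : ℕ))) (sum_single_mul_regMat p f j)
  simp only [map_sum, map_mul] at h
  rw [← h]
  refine Finset.sum_congr rfl fun i _ => ?_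
  rw [Fermat.Agent.H76.twist_qExpand p _ hb]

theorem charpoly_regMat_map (p : ℕ) [NeZero p] (ζ : Kˣ) (hζ : IsPrimitiveRoot (ζ : K) p)
    (f : LaurentSeries K) :
    ((regMat p f).map (qExpand K p)).charpoly =
      ∏ b : Fin p, (X - C (twist (ζ ^ (b : ℕ)) f)) := by
  have hζp : ζ ^ p = 1 := by
    ext
    simpa using hζ.pow_eq_one
  have hdet : IsUnit (Matrix.vandermonde (vnode p ζ)).det := by
    rw [isUnit_iff_ne_zero, Matrix.det_vandermonde_ne_zero_iff]
    exact vnode_injective p ζ hζ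
  obtain ⟨W, hW⟩ := (Matrix.isUnit_iff_isUnit_det _).mpr hdet
  have h := vandermonde_mul_regMat p ζ hζp f
  rw [← hW] at h
  have h2 : (regMat p f).map (qExpand K p) =
      (W⁻¹ : (Matrix (Fin p) (Fin p) (LaurentSeries K))ˣ).val *
        Matrix.diagonal (fun b : Fin p => twist (ζ ^ (b : ℕ)) f) * W.val := by
    rw [mul_assoc, ← h, ← mul_assoc, Units.inv_mul, one_mul]
  rw [h2, Matrix.charpoly_mul_comm, ← mul_assoc, Units.mul_inv, one_mul, Matrix.charpoly_diagonal]


theorem exists_vandermonde_unit (p : ℕ) [NeZero p] (ζ : Kˣ) (hζ : IsPrimitiveRoot (ζ : K) p) :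
    ∃ W : (Matrix (Fin p) (Fin p) (LaurentSeries K))ˣ, ∀ f : LaurentSeries K,
      (regMat p f).map (qExpand K p) =
        (W⁻¹ : (Matrix (Fin p) (Fin p) (LaurentSeries K))ˣ).val *
          Matrix.diagonal (fun b : Fin p => twist (ζ ^ (b : ℕ)) f) * W.val := by
  have hζp : ζ ^ p = 1 := by
    ext
    simpa using hζ.pow_eq_one
  have hdet : IsUnit (Matrix.vandermonde (vnode p ζ)).det := by
    rw [isUnit_iff_ne_zero, Matrix.det_vandermonde_ne_zero_iff]
    exact vnode_injective p ζ hζ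
  obtain ⟨W, hW⟩ := (Matrix.isUnit_iff_isUnit_det _).mpr hdet
  refine ⟨W, fun f => ?_⟩
  have h := vandermonde_mul_regMat p ζ hζp f
  rw [← hW] at h
  rw [mul_assoc, ← h, ← mul_assoc, Units.inv_mul, one_mul]

theorem sum_mul_prod_erase_eq_trace (p : ℕ) [NeZero p] (ζ : Kˣ) (hζ : IsPrimitiveRoot (ζ : K) p)
    (u f : LaurentSeries K) :
    ∑ b : Fin p, C (twist (ζ ^ (b : ℕ)) u) *
        ∏ h ∈ Finset.univ.erase b, (X - C (twist (ζ ^ (h : ℕ)) f)) =
      Matrix.trace ((C : LaurentSeries K →+* (LaurentSeries K)[X]).mapMatrix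
          ((regMat p u).map (qExpand K p)) *
        Matrix.adjugate (Matrix.charmatrix ((regMat p f).map (qExpand K p)))) := by
  obtain ⟨W, hW⟩ := exists_vandermonde_unit p ζ hζ
  have hVW : (W⁻¹ : (Matrix (Fin p) (Fin p) (LaurentSeries K))ˣ).val * W.val = 1 := Units.inv_mul W
  have hVW' : (C : LaurentSeries K →+* (LaurentSeries K)[X]).mapMatrix
      (W⁻¹ : (Matrix (Fin p) (Fin p) (LaurentSeries K))ˣ).val *
      (C : LaurentSeries K →+* (LaurentSeries K)[X]).mapMatrix W.val = 1 := by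
    rw [← map_mul, hVW, map_one]
  rw [hW u, hW f, charmatrix_conj _ _ _ hVW, map_mul, map_mul,
    trace_conj_mul_adjugate_conj _ _ _ _ hVW', Matrix.charmatrix_diagonal,
    Matrix.adjugate_diagonal, RingHom.mapMatrix_apply, Matrix.diagonal_map (map_zero _),
    Matrix.diagonal_mul_diagonal, Matrix.trace_diagonal]

end Diag


section Integral

variable {R : Type*} [CommRing R] {K : Type*} [Field K] (φ : R →+* K)

/-- the base change `R((q)) → K((t))`, `q ↦ t^p` -/
def iotaHom (p : ℕ) [NeZero p] : LaurentSeries R →+* LaurentSeries K :=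
  (qExpand K p).comp (coeffMap φ)

theorem iotaHom_apply (p : ℕ) [NeZero p] (x : LaurentSeries R) :
    iotaHom φ p x = qExpand K p (coeffMap φ x) := rfl

theorem regMat_map_iota (p : ℕ) [NeZero p] (f : LaurentSeries R) :
    (regMat p (coeffMap φ f)).map (qExpand K p) = (regMat p f).map (iotaHom φ p) := by
  rw [regMat_coeffMap, Matrix.map_map]
  rfl

/-- the norm polynomial of `Y - f` from `R((t))` to `R((t^p))` -/
def normPoly (p : ℕ) [NeZero p] (f : LaurentSeries R) : Polynomial (LaurentSeries R) :=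
  (regMat p f).charpoly

/-- the trace polynomial `Tr (u · adj(Y - f))` from `R((t))` to `R((t^p))` -/
def tracePoly (p : ℕ) [NeZero p] (u f : LaurentSeries R) : Polynomial (LaurentSeries R) :=
  Matrix.trace ((C : LaurentSeries R →+* (LaurentSeries R)[X]).mapMatrix (regMat p u) *
    Matrix.adjugate (Matrix.charmatrix (regMat p f)))

theorem normPoly_monic (p : ℕ) [NeZero p] (f : LaurentSeries R) : (normPoly p f).Monic :=
  Matrix.charpoly_monic _

theorem normPoly_natDegree [Nontrivial R] (p : ℕ) [NeZero p] (f : LaurentSeries R) :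
    (normPoly p f).natDegree = p := by
  rw [normPoly, Matrix.charpoly_natDegree_eq_dim, Fintype.card_fin]

theorem prod_range_twist (p : ℕ) [NeZero p] (ζ : Kˣ) (hζ : IsPrimitiveRoot (ζ : K) p)
    (f : LaurentSeries R) :
    ∏ b ∈ Finset.range p, (X - C (twist (ζ ^ b) (coeffMap φ f))) =
      (normPoly p f).map (iotaHom φ p) := by
  rw [normPoly, ← Matrix.charpoly_map, ← regMat_map_iota, charpoly_regMat_map p ζ hζ,
    Finset.prod_range]

theorem map_tracePoly (p : ℕ) [NeZero p] (u f : LaurentSeries R) :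
    (tracePoly p u f).map (iotaHom φ p) =
      Matrix.trace ((C : LaurentSeries K →+* (LaurentSeries K)[X]).mapMatrix
          ((regMat p u).map (iotaHom φ p)) *
        Matrix.adjugate (Matrix.charmatrix ((regMat p f).map (iotaHom φ p)))) := by
  rw [tracePoly, ← Polynomial.coe_mapRingHom, AddMonoidHom.map_trace, Matrix.charmatrix_map,
    ← RingHom.mapMatrix_apply, ← RingHom.mapMatrix_apply, map_mul, RingHom.map_adjugate]
  congr 2
  apply Matrix.ext
  intro i j
  simp

theorem erase_map_val (p : ℕ) (b : Fin p) :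
    (Finset.univ.erase b).map Fin.valEmbedding = (Finset.range p).erase (b : ℕ) := by
  ext x
  simp only [Finset.mem_map, Finset.mem_erase, Finset.mem_univ, and_true, Fin.valEmbedding_apply,
    Finset.mem_range, ne_eq]
  constructor
  · rintro ⟨a, ha, rfl⟩
    exact ⟨fun h => ha (Fin.ext h), a.2⟩
  · rintro ⟨h1, h2⟩
    exact ⟨⟨x, h2⟩, fun h => h1 (by rw [← h]), rfl⟩

theorem sum_range_twist (p : ℕ) [NeZero p] (ζ : Kˣ) (hζ : IsPrimitiveRoot (ζ : K) p)
    (u f : LaurentSeries R) :
    ∑ b ∈ Finset.range p, C (twist (ζ ^ b) (coeffMap φ u)) *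
        ∏ h ∈ (Finset.range p).erase b, (X - C (twist (ζ ^ h) (coeffMap φ f))) =
      (tracePoly p u f).map (iotaHom φ p) := by
  rw [map_tracePoly, ← regMat_map_iota, ← regMat_map_iota,
    ← sum_mul_prod_erase_eq_trace p ζ hζ, Finset.sum_range]
  refine Finset.sum_congr rfl fun b _ => ?_
  rw [← erase_map_val, Finset.prod_map]
  rfl

end Integral


section HeckePolys

variable (K : Type*) [Field K]

/-- `Δ(t) / Δ(t^p)` over `ℤ` -/
def uFinZ (p : ℕ) [NeZero p] : LaurentSeries ℤ := deltaS ℤ * qExpand ℤ p (deltaInvS ℤ)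

/-- `p^12 Δ(q^p) / Δ(q)` over `ℤ` -/
def uInfZ (p : ℕ) [NeZero p] : LaurentSeries ℤ :=
  (p : LaurentSeries ℤ) ^ 12 * qExpand ℤ p (deltaS ℤ) * deltaInvS ℤ

/-- the modular polynomial with coefficients in `ℤ((q))` -/
def PhiZ (p : ℕ) [NeZero p] : Polynomial (LaurentSeries ℤ) :=
  (X - C (baseS ℤ p)) * normPoly p (jqModC ℤ)

/-- the unit polynomial with coefficients in `ℤ((q))` -/
def PsiZ (p : ℕ) [NeZero p] : Polynomial (LaurentSeries ℤ) :=
  (X - C (uInfZ p)) * normPoly p (uFinZ p)

/-- the Lagrange numerator with coefficients in `ℤ((q))` -/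
def LZ (p : ℕ) [NeZero p] : Polynomial (LaurentSeries ℤ) :=
  C (uInfZ p) * normPoly p (jqModC ℤ) +
    (X - C (baseS ℤ p)) * tracePoly p (uFinZ p) (jqModC ℤ)

variable {K}

theorem iota_baseS (p : ℕ) [NeZero p] :
    iotaHom (Int.castRingHom K) p (baseS ℤ p) = rootInf K p := by
  rw [iotaHom_apply, Fermat.Agent.H67.coeffMap_baseS, rootInf, baseS]

theorem iota_uInfZ (p : ℕ) [NeZero p] :
    iotaHom (Int.castRingHom K) p (uInfZ p) = unitInf K p := by
  rw [iotaHom_apply, uInfZ, unitInf]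
  simp only [map_mul, map_pow, map_natCast, coeffMap_qExpand, Fermat.Agent.H67.coeffMap_deltaS,
    Fermat.Agent.H67.coeffMap_deltaInvS]

theorem twist_coeffMap_jqModC (ζ : Kˣ) :
    twist ζ (coeffMap (Int.castRingHom K) (jqModC ℤ)) = rootFin ζ := by
  rw [coeffMap_jqModC, rootFin]

theorem twist_coeffMap_uFinZ (p : ℕ) [NeZero p] (ζ : Kˣ) (hζ : ζ ^ p = 1) :
    twist ζ (coeffMap (Int.castRingHom K) (uFinZ p)) = unitFin p ζ := by
  rw [uFinZ, map_mul, coeffMap_qExpand, Fermat.Agent.H67.coeffMap_deltaS,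
    Fermat.Agent.H67.coeffMap_deltaInvS, map_mul, Fermat.Agent.H76.twist_qExpand p ζ hζ, unitFin]

theorem pow_pow_eq_one_of_isPrimitiveRoot (p : ℕ) (ζ : Kˣ) (hζ : IsPrimitiveRoot (ζ : K) p)
    (b : ℕ) : (ζ ^ b) ^ p = 1 := by
  have hζp : ζ ^ p = 1 := by
    ext
    simpa using hζ.pow_eq_one
  rw [← pow_mul, mul_comm, pow_mul, hζp, one_pow]

theorem prod_rootFin_eq_map (p : ℕ) [NeZero p] (ζ : Kˣ) (hζ : IsPrimitiveRoot (ζ : K) p) :
    ∏ b ∈ Finset.range p, (X - C (rootFin (ζ ^ b))) =
      (normPoly p (jqModC ℤ)).map (iotaHom (Int.castRingHom K) p) := by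
  rw [← prod_range_twist (Int.castRingHom K) p ζ hζ]
  simp only [twist_coeffMap_jqModC]

theorem prod_unitFin_eq_map (p : ℕ) [NeZero p] (ζ : Kˣ) (hζ : IsPrimitiveRoot (ζ : K) p) :
    ∏ b ∈ Finset.range p, (X - C (unitFin p (ζ ^ b))) =
      (normPoly p (uFinZ p)).map (iotaHom (Int.castRingHom K) p) := by
  rw [← prod_range_twist (Int.castRingHom K) p ζ hζ]
  refine Finset.prod_congr rfl fun b _ => ?_
  rw [twist_coeffMap_uFinZ p _ (pow_pow_eq_one_of_isPrimitiveRoot p ζ hζ b)]

theorem sum_unitFin_eq_map (p : ℕ) [NeZero p] (ζ : Kˣ) (hζ : IsPrimitiveRoot (ζ : K) p) :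
    ∑ b ∈ Finset.range p, C (unitFin p (ζ ^ b)) *
        ∏ h ∈ (Finset.range p).erase b, (X - C (rootFin (ζ ^ h))) =
      (tracePoly p (uFinZ p) (jqModC ℤ)).map (iotaHom (Int.castRingHom K) p) := by
  rw [← sum_range_twist (Int.castRingHom K) p ζ hζ]
  refine Finset.sum_congr rfl fun b _ => ?_
  rw [twist_coeffMap_uFinZ p _ (pow_pow_eq_one_of_isPrimitiveRoot p ζ hζ b)]
  simp only [twist_coeffMap_jqModC]

theorem PhiF_eq_map (p : ℕ) [NeZero p] (ζ : Kˣ) (hζ : IsPrimitiveRoot (ζ : K) p) :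
    PhiF p ζ = (PhiZ p).map (iotaHom (Int.castRingHom K) p) := by
  rw [PhiF, PhiZ, prod_rootFin_eq_map p ζ hζ, Polynomial.map_mul, Polynomial.map_sub,
    Polynomial.map_X, Polynomial.map_C, iota_baseS]

theorem PsiF_eq_map (p : ℕ) [NeZero p] (ζ : Kˣ) (hζ : IsPrimitiveRoot (ζ : K) p) :
    PsiF p ζ = (PsiZ p).map (iotaHom (Int.castRingHom K) p) := by
  rw [PsiF, PsiZ, prod_unitFin_eq_map p ζ hζ, Polynomial.map_mul, Polynomial.map_sub,
    Polynomial.map_X, Polynomial.map_C, iota_uInfZ]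

theorem LF_eq_map (p : ℕ) [NeZero p] (ζ : Kˣ) (hζ : IsPrimitiveRoot (ζ : K) p) :
    LF p ζ = (LZ p).map (iotaHom (Int.castRingHom K) p) := by
  rw [LF, LZ, prod_rootFin_eq_map p ζ hζ, sum_unitFin_eq_map p ζ hζ, Polynomial.map_add,
    Polynomial.map_mul, Polynomial.map_mul, Polynomial.map_sub, Polynomial.map_X,
    Polynomial.map_C, Polynomial.map_C, iota_baseS, iota_uInfZ]

end HeckePolys


section IntegralPoly

variable {K : Type*} [Field K]

theorem coeff_algebraMap_mul (a : K) (x : LaurentSeries K) (n : ℤ) :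
    (algebraMap K (LaurentSeries K) a * x).coeff n = a * x.coeff n := by
  rw [algebraMap_laurentSeries_eq_single, HahnSeries.coeff_single_zero_mul]

theorem coeff_aeval_jqModC_neg (n : ℕ) (P : Polynomial K) (hP : P.natDegree ≤ n) :
    (Polynomial.aeval (jqModC K) P).coeff (-(n : ℤ)) = P.coeff n := by
  rw [Polynomial.aeval_def, Polynomial.eval₂_eq_sum_range' _ (Nat.lt_succ_of_le hP),
    HahnSeries.coeff_sum,
    Finset.sum_eq_single_of_mem n (Finset.mem_range.mpr (Nat.lt_succ_self n))]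
  · rw [coeff_algebraMap_mul, coeff_jqModC_pow_self, mul_one]
  · intro i hi hne
    have hlt : i < n := lt_of_le_of_ne (Nat.lt_succ_iff.mp (Finset.mem_range.mp hi)) hne
    have hlt' : (-(n : ℤ)) < -(i : ℤ) := neg_lt_neg (by exact_mod_cast hlt)
    rw [coeff_algebraMap_mul, coeff_jqModC_pow_of_lt K hlt', mul_zero]

/-- A polynomial in `j` with complex coefficients whose `q`-expansion is integral has integral
coefficients. -/
theorem exists_int_poly_of_aeval_eq (n : ℕ) :
    ∀ (P : Polynomial K) (c : LaurentSeries ℤ), P.natDegree ≤ n →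
      coeffMap (Int.castRingHom K) c = Polynomial.aeval (jqModC K) P →
      ∃ P' : Polynomial ℤ, P'.map (Int.castRingHom K) = P := by
  induction n with
  | zero =>
    intro P c hP h
    have h0 := coeff_aeval_jqModC_neg 0 P hP
    rw [← h] at h0
    simp only [CharP.cast_eq_zero, neg_zero, coeffMap_coeff, eq_intCast] at h0
    refine ⟨Polynomial.C (c.coeff 0), ?_⟩
    rw [Polynomial.map_C, eq_intCast, h0, ← Polynomial.eq_C_of_natDegree_le_zero hP]
  | succ n ih =>
    intro P c hP h
    have h0 := coeff_aeval_jqModC_neg (n + 1) P hP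
    rw [← h] at h0
    simp only [coeffMap_coeff, eq_intCast] at h0
    set m : ℤ := c.coeff (-((n + 1 : ℕ) : ℤ)) with hm
    have hP1 : (P - Polynomial.C (m : K) * Polynomial.X ^ (n + 1)).natDegree ≤ n := by
      rw [Polynomial.natDegree_le_iff_coeff_eq_zero]
      intro N hN
      rw [Polynomial.coeff_sub, Polynomial.coeff_C_mul, Polynomial.coeff_X_pow]
      rcases eq_or_ne N (n + 1) with rfl | hne
      · rw [if_pos rfl, mul_one, h0, sub_self]
      · rw [if_neg hne, mul_zero, sub_zero]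
        exact Polynomial.coeff_eq_zero_of_natDegree_lt (lt_of_le_of_lt hP (by omega))
    have hc1 : coeffMap (Int.castRingHom K) (c - HahnSeries.C m * (jqModC ℤ) ^ (n + 1)) =
        Polynomial.aeval (jqModC K) (P - Polynomial.C (m : K) * Polynomial.X ^ (n + 1)) := by
      rw [map_sub, map_mul, map_pow, coeffMap_jqModC, h, map_sub, map_mul, map_pow,
        Polynomial.aeval_X, Polynomial.aeval_C]
      congr 2
      rw [HahnSeries.C_apply, coeffMap_single, eq_intCast, algebraMap_laurentSeries_eq_single]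
    obtain ⟨P₁, hP₁⟩ := ih _ _ hP1 hc1
    refine ⟨P₁ + Polynomial.C m * Polynomial.X ^ (n + 1), ?_⟩
    rw [Polynomial.map_add, hP₁, Polynomial.map_mul, Polynomial.map_pow, Polynomial.map_X,
      Polynomial.map_C, eq_intCast]
    ring

end IntegralPoly


section Package

variable {K : Type*} [Field K]

theorem qExpand_aeval (p : ℕ) [NeZero p] (x : LaurentSeries K) (P : Polynomial K) :
    qExpand K p (Polynomial.aeval x P) = Polynomial.aeval (qExpand K p x) P := by
  rw [Polynomial.aeval_def, Polynomial.aeval_def, Polynomial.hom_eval₂]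
  congr 1
  ext a : 1
  rw [RingHom.comp_apply, algebraMap_laurentSeries_eq_single, qExpand_single, mul_zero]

theorem evalAt_eq_aeval_map (x : LaurentSeries K) (P : Polynomial ℤ) :
    evalAt x P = Polynomial.aeval x (P.map (Int.castRingHom K)) := by
  rw [evalAt, Polynomial.coe_eval₂RingHom, Polynomial.aeval_def, Polynomial.eval₂_map]
  congr 1
  exact RingHom.ext_int _ _

theorem mem_lifts_of_polyInJ (p : ℕ) [NeZero p] (FZ : Polynomial (LaurentSeries ℤ))
    (F : Polynomial (LaurentSeries K)) (hF : F = FZ.map (iotaHom (Int.castRingHom K) p))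
    (h : PolyInJ p F) : F ∈ Polynomial.lifts (evalAt (baseS K p)) := by
  rw [Polynomial.lifts_iff_coeff_lifts]
  intro i
  obtain ⟨P, hP⟩ := h i
  have h1 : coeffMap (Int.castRingHom K) (FZ.coeff i) = Polynomial.aeval (jqModC K) P := by
    apply qExpand_injective (R := K) p
    rw [← iotaHom_apply, ← Polynomial.coeff_map, ← hF, hP, baseS, qExpand_aeval]
  obtain ⟨P', hP'⟩ := exists_int_poly_of_aeval_eq _ P _ le_rfl h1
  exact ⟨P', by rw [hP, evalAt_eq_aeval_map, hP']⟩

theorem PhiF_monic (p : ℕ) [NeZero p] (ζ : Kˣ) : (PhiF p ζ).Monic :=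
  (Polynomial.monic_X_sub_C _).mul (Polynomial.monic_prod_of_monic _ _
    fun _ _ => Polynomial.monic_X_sub_C _)

theorem PhiF_natDegree (p : ℕ) [NeZero p] (ζ : Kˣ) : (PhiF p ζ).natDegree = p + 1 := by
  rw [PhiF, Polynomial.Monic.natDegree_mul (Polynomial.monic_X_sub_C _)
    (Polynomial.monic_prod_of_monic _ _ fun _ _ => Polynomial.monic_X_sub_C _),
    Polynomial.natDegree_X_sub_C,
    Polynomial.natDegree_prod_of_monic _ _ (fun _ _ => Polynomial.monic_X_sub_C _)]
  simp only [Polynomial.natDegree_X_sub_C, Finset.sum_const, Finset.card_range, smul_eq_mul,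
    mul_one]
  ring

theorem PsiF_monic (p : ℕ) [NeZero p] (ζ : Kˣ) : (PsiF p ζ).Monic :=
  (Polynomial.monic_X_sub_C _).mul (Polynomial.monic_prod_of_monic _ _
    fun _ _ => Polynomial.monic_X_sub_C _)

theorem PsiF_eval_unitInf (p : ℕ) [NeZero p] (ζ : Kˣ) : (PsiF p ζ).eval (unitInf K p) = 0 := by
  rw [PsiF, Polynomial.eval_mul, Polynomial.eval_sub, Polynomial.eval_X, Polynomial.eval_C,
    sub_self, zero_mul]

theorem LF_eval_rootInf (p : ℕ) [NeZero p] (ζ : Kˣ) :
    (LF p ζ).eval (rootInf K p) =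
      unitInf K p * (Polynomial.derivative (PhiF p ζ)).eval (rootInf K p) := by
  rw [LF, PhiF, Polynomial.derivative_mul, Polynomial.eval_add, Polynomial.eval_add,
    Polynomial.eval_mul, Polynomial.eval_mul, Polynomial.eval_mul, Polynomial.eval_mul,
    Polynomial.eval_sub, Polynomial.eval_X, Polynomial.eval_C, Polynomial.eval_C, sub_self,
    zero_mul, zero_mul, add_zero, add_zero, Polynomial.derivative_sub, Polynomial.derivative_X,
    Polynomial.derivative_C, sub_zero, Polynomial.eval_one, one_mul]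

/-- **Packaging**: if all coefficients of the three formal Hecke polynomials are polynomials in
`j(t^p)` (with coefficients in `K`), then integral Hecke data exist. -/
theorem heckeDataOver_of_polyInJ (p : ℕ) [NeZero p] (ζ : Kˣ) (hζ : IsPrimitiveRoot (ζ : K) p)
    (hΦ : PolyInJ p (PhiF p ζ)) (hΨ : PolyInJ p (PsiF p ζ)) (hL : PolyInJ p (LF p ζ)) :
    Nonempty (HeckeDataOver p K ζ) := by
  obtain ⟨Φ, hΦmap, hΦdeg, hΦmonic⟩ := Polynomial.lifts_and_natDegree_eq_and_monic
    (mem_lifts_of_polyInJ p _ _ (PhiF_eq_map p ζ hζ) hΦ) (PhiF_monic p ζ)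
  obtain ⟨Ψ, hΨmap, -, hΨmonic⟩ := Polynomial.lifts_and_natDegree_eq_and_monic
    (mem_lifts_of_polyInJ p _ _ (PsiF_eq_map p ζ hζ) hΨ) (PsiF_monic p ζ)
  obtain ⟨L, hLmap⟩ := (Polynomial.mem_lifts _).mp
    (mem_lifts_of_polyInJ p _ _ (LF_eq_map p ζ hζ) hL)
  exact ⟨{ Φ := Φ
           Ψ := Ψ
           L := L
           Φ_monic := hΦmonic
           Φ_natDegree := by rw [hΦdeg, PhiF_natDegree]
           Ψ_monic := hΨmonic
           Φ_factor := by rw [hΦmap, PhiF]
           Ψ_root := by rw [hΨmap, PsiF_eval_unitInf]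
           L_inf := by rw [hLmap, hΦmap, LF_eval_rootInf] }⟩

theorem hasHeckeData_of_polyInJ
    (h : ∀ (p : ℕ) [NeZero p], p.Prime → ∀ ζ : Kˣ, IsPrimitiveRoot (ζ : K) p →
      PolyInJ p (PhiF p ζ) ∧ PolyInJ p (PsiF p ζ) ∧ PolyInJ p (LF p ζ)) :
    HasHeckeData K := by
  intro p _ hp ζ hζ
  obtain ⟨h1, h2, h3⟩ := h p hp ζ hζ
  exact heckeDataOver_of_polyInJ p ζ hζ h1 h2 h3

end Package

end Fermat.Agent.H91
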