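import Mathlib

/-!
# Purity in dimension two for integral closures (helper91, P-ES / KL-PUR)

`R` an integrally closed domain with fraction field `K`, `E/K` a finite field extension,
`B = integralClosure R E`.

* `isIntegral_of_smul_of_smul` : saturation (`S₂`) lemma: `p z`, `g z` integral, `p` prime,
  `p ∤ g` ⟹ `z` integral.
* `exists_adapted_basis` : if `R / p` is a PID and `B` is a finite `R`-module there are
  `b₁, …, b_n ∈ B`, `R`-linearly independent, and `r ≡ 1 mod p` with `r B ⊆ ⊕ R b_i`.
* `TraceNondegAt R K E I` : the trace form of `B` is nondegenerate modulo `I`.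
* `traceNondegAt_of_forall_prime` : **purity**: if `R` is a UFD, `𝔪` a prime ideal containing `p`
  and the trace form is nondegenerate modulo every prime element of `𝔪`, it is nondegenerate
  modulo `𝔪`.
-/

set_option autoImplicit false
set_option linter.style.haveILetI false
set_option linter.unusedSectionVars false

noncomputable section

open Polynomial Matrix
open scoped Pointwise

namespace Fermat.Agent.H91

section Saturation

variable {R : Type*} [CommRing R] [IsDomain R] [IsIntegrallyClosed R]
variable (K : Type*) [Field K] [Algebra R K] [IsFractionRing R K]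
variable {E : Type*} [Field E] [Algebra K E] [Algebra R E] [IsScalarTower R K E]

/-- coefficients of the minimal polynomial over `K`, scaled by powers of `s`, are in `R`
as soon as `s • z` is integral over `R` -/
theorem coeff_minpoly_mul_pow_mem_range {s : R} (hs : s ≠ 0) {z : E}
    (hz : IsIntegral R (s • z)) (i : ℕ) :
    ∃ a : R, algebraMap R K a =
      (minpoly K z).coeff i * (algebraMap R K s) ^ ((minpoly K z).natDegree - i) := by
  have hsK : algebraMap R K s ≠ 0 := by
    simpa using (map_ne_zero_iff (algebraMap R K) (IsFractionRing.injective R K)).mpr hs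
  have hsz : s • z = (algebraMap R K s) • z := by
    rw [algebraMap_smul]
  have hzK : IsIntegral K z := by
    have h1 : IsIntegral K ((algebraMap R K s) • z) := by
      rw [← hsz]; exact hz.tower_top
    have h2 : z = (algebraMap R K s)⁻¹ • ((algebraMap R K s) • z) := by
      rw [smul_smul, inv_mul_cancel₀ hsK, one_smul]
    rw [h2]
    exact h1.smul _
  have h3 : minpoly K (s • z) = (minpoly K z).scaleRoots (algebraMap R K s) := by
    rw [hsz]
    exact IsIntegrallyClosed.minpoly_smul hsK hzK
  have h4 : minpoly K (s • z) = (minpoly R (s • z)).map (algebraMap R K) :=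
    minpoly.isIntegrallyClosed_eq_field_fractions' K hz
  refine ⟨(minpoly R (s • z)).coeff i, ?_⟩
  rw [← coeff_map, ← h4, h3, coeff_scaleRoots]

include K in
/-- **Saturation lemma** (the `S₂` property of the integral closure, elementary form):
if `p` is a prime element, `p ∤ g`, and both `p • z`, `g • z` are integral over the integrally
closed domain `R`, then `z` is integral. -/
theorem isIntegral_of_smul_of_smul {p g : R} (hp : Prime p) (hg : ¬ p ∣ g) {z : E}
    (hpz : IsIntegral R (p • z)) (hgz : IsIntegral R (g • z)) : IsIntegral R z := by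
  have hg0 : g ≠ 0 := fun h => hg (h ▸ dvd_zero p)
  have hpK : algebraMap R K p ≠ 0 := by
    simpa using (map_ne_zero_iff (algebraMap R K) (IsFractionRing.injective R K)).mpr hp.ne_zero
  have hzK : IsIntegral K z := by
    have hsz : p • z = (algebraMap R K p) • z := by rw [algebraMap_smul]
    have h1 : IsIntegral K ((algebraMap R K p) • z) := by
      rw [← hsz]; exact hpz.tower_top
    have h2 : z = (algebraMap R K p)⁻¹ • ((algebraMap R K p) • z) := by
      rw [smul_smul, inv_mul_cancel₀ hpK, one_smul]
    rw [h2]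
    exact h1.smul _
  -- all coefficients of the minimal polynomial lie in `R`
  have hcoeff : ∀ i, (minpoly K z).coeff i ∈ (algebraMap R K).range := by
    intro i
    obtain ⟨a, ha⟩ := coeff_minpoly_mul_pow_mem_range K hp.ne_zero hpz i
    obtain ⟨b, hb⟩ := coeff_minpoly_mul_pow_mem_range K hg0 hgz i
    set k := (minpoly K z).natDegree - i
    have h1 : a * g ^ k = b * p ^ k := by
      apply IsFractionRing.injective R K
      rw [map_mul, map_mul, map_pow, map_pow, ha, hb]
      ring
    have h2 : p ^ k ∣ a := by
      refine Prime.pow_dvd_of_dvd_mul_right hp k ?_ (Dvd.intro_left b h1.symm)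
      exact fun h => hg (hp.dvd_of_dvd_pow h)
    obtain ⟨c, hc⟩ := h2
    refine ⟨c, ?_⟩
    have h3 : algebraMap R K c * (algebraMap R K p) ^ k =
        (minpoly K z).coeff i * (algebraMap R K p) ^ k := by
      rw [← ha, hc, map_mul, map_pow]; ring
    exact mul_right_cancel₀ (pow_ne_zero k hpK) h3
  have hlift : minpoly K z ∈ Polynomial.lifts (algebraMap R K) := by
    rw [Polynomial.lifts_iff_coeff_lifts]
    exact hcoeff
  obtain ⟨Q, hQ, -, hQm⟩ :=
    Polynomial.lifts_and_degree_eq_and_monic hlift (minpoly.monic hzK)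
  refine ⟨Q, hQm, ?_⟩
  have : aeval z Q = aeval z (Q.map (algebraMap R K)) := by
    rw [aeval_map_algebraMap]
  rw [← aeval_def, this, hQ, minpoly.aeval]

include K in
/-- `B/pB` is torsion-free over `R/pR` -/
theorem exists_eq_smul_of_smul_eq_smul {p g : R} (hp : Prime p) (hg : ¬ p ∣ g) {x y : E}
    (hx : IsIntegral R x) (hy : IsIntegral R y) (h : g • x = p • y) :
    ∃ z : E, IsIntegral R z ∧ x = p • z := by
  have hpK : algebraMap R K p ≠ 0 := by
    simpa using (map_ne_zero_iff (algebraMap R K) (IsFractionRing.injective R K)).mpr hp.ne_zero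
  refine ⟨(algebraMap R K p)⁻¹ • x, ?_, ?_⟩
  · have h1 : p • ((algebraMap R K p)⁻¹ • x) = x := by
      rw [← algebraMap_smul K p, smul_smul, mul_inv_cancel₀ hpK, one_smul]
    have h2 : g • ((algebraMap R K p)⁻¹ • x) = y := by
      rw [smul_comm, h, ← algebraMap_smul K p y, smul_smul, inv_mul_cancel₀ hpK, one_smul]
    exact isIntegral_of_smul_of_smul K hp hg (h1.symm ▸ hx) (h2.symm ▸ hy)
  · rw [← algebraMap_smul K p, smul_smul, mul_inv_cancel₀ hpK, one_smul]

end Saturation


section Basis

variable {R : Type*} [CommRing R] [IsDomain R] [IsIntegrallyClosed R] [IsNoetherianRing R]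
variable (K : Type*) [Field K] [Algebra R K] [IsFractionRing R K]
variable (E : Type*) [Field E] [Algebra K E] [Algebra R E] [IsScalarTower R K E]

include K in
theorem isTorsionFree_quotSMulTop {p : R} (hp : Prime p) :
    Module.IsTorsionFree (R ⧸ Ideal.span {p}) (QuotSMulTop p ↥(integralClosure R E)) := by
  haveI : (Ideal.span {p}).IsPrime := (Ideal.span_singleton_prime hp.ne_zero).mpr hp
  refine ⟨fun r hr => ?_⟩
  obtain ⟨g, rfl⟩ := Ideal.Quotient.mk_surjective r
  have hg : ¬ p ∣ g := by
    intro h
    have h0 : Ideal.Quotient.mk (Ideal.span {p}) g = 0 :=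
      Ideal.Quotient.eq_zero_iff_mem.mpr (Ideal.mem_span_singleton.mpr h)
    exact hr.ne_zero h0
  intro x y hxy
  obtain ⟨x, rfl⟩ := Submodule.mkQ_surjective _ x
  obtain ⟨y, rfl⟩ := Submodule.mkQ_surjective _ y
  have h1 : (p • (⊤ : Submodule R ↥(integralClosure R E))).mkQ (g • (x - y)) = 0 := by
    have h2 : ∀ w : ↥(integralClosure R E),
        (Ideal.Quotient.mk (Ideal.span {p}) g) • (p • (⊤ : Submodule R ↥(integralClosure R E))).mkQ w
          = (p • (⊤ : Submodule R ↥(integralClosure R E))).mkQ (g • w) := fun w => rfl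
    rw [smul_sub, map_sub, ← h2, ← h2]
    exact sub_eq_zero.mpr hxy
  rw [Submodule.mkQ_apply, Submodule.Quotient.mk_eq_zero,
    Submodule.mem_smul_pointwise_iff_exists] at h1
  obtain ⟨w, -, hw⟩ := h1
  have h3 : g • ((x - y : ↥(integralClosure R E)) : E) = p • (w : E) := by
    have := congrArg (Subtype.val) hw
    simpa using this.symm
  obtain ⟨z, hz, hxz⟩ := exists_eq_smul_of_smul_eq_smul K hp hg (x - y).2 w.2 h3
  have h4 : (p • (⊤ : Submodule R ↥(integralClosure R E))).mkQ (x - y) = 0 := by
    rw [Submodule.mkQ_apply, Submodule.Quotient.mk_eq_zero,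
      Submodule.mem_smul_pointwise_iff_exists]
    refine ⟨⟨z, hz⟩, Submodule.mem_top, ?_⟩
    apply Subtype.ext
    simpa using hxz.symm
  rw [map_sub] at h4
  exact sub_eq_zero.mp h4

include K in
/-- **Adapted basis**: a family `b` of integral elements, linearly independent over `R`, whose
`R`-span contains `r • B` for some `r ≡ 1 mod p`. -/
theorem exists_adapted_basis {p : R} (hp : Prime p)
    [IsPrincipalIdealRing (R ⧸ Ideal.span {p})] [Module.Finite R ↥(integralClosure R E)] :
    ∃ (n : ℕ) (b : Fin n → E) (r : R), (∀ i, IsIntegral R (b i)) ∧ LinearIndependent R b ∧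
      p ∣ r - 1 ∧ ∀ x : E, IsIntegral R x → ∃ c : Fin n → R, r • x = ∑ i, c i • b i := by
  classical
  haveI : (Ideal.span {p}).IsPrime := (Ideal.span_singleton_prime hp.ne_zero).mpr hp
  haveI : IsDomain (R ⧸ Ideal.span {p}) := Ideal.Quotient.isDomain _
  haveI : Module.Finite (R ⧸ Ideal.span {p}) (QuotSMulTop p ↥(integralClosure R E)) :=
    Module.Finite.of_restrictScalars_finite R _ _
  haveI : Module.IsTorsionFree (R ⧸ Ideal.span {p}) (QuotSMulTop p ↥(integralClosure R E)) :=
    isTorsionFree_quotSMulTop K E hp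
  haveI : Module.Free (R ⧸ Ideal.span {p}) (QuotSMulTop p ↥(integralClosure R E)) :=
    Module.free_of_finite_type_torsion_free'
  let ι := Module.Free.ChooseBasisIndex (R ⧸ Ideal.span {p}) (QuotSMulTop p ↥(integralClosure R E))
  let bbar0 := Module.Free.chooseBasis (R ⧸ Ideal.span {p}) (QuotSMulTop p ↥(integralClosure R E))
  let e : ι ≃ Fin (Fintype.card ι) := Fintype.equivFin ι
  let bbar := bbar0.reindex e
  have hsurj := Submodule.mkQ_surjective (p • (⊤ : Submodule R ↥(integralClosure R E)))
  choose b hb using fun i => hsurj (bbar i)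
  have hmk : ∀ (g : R) (w : ↥(integralClosure R E)),
      (Ideal.Quotient.mk (Ideal.span {p}) g) • (p • (⊤ : Submodule R ↥(integralClosure R E))).mkQ w
        = (p • (⊤ : Submodule R ↥(integralClosure R E))).mkQ (g • w) := fun g w => rfl
  -- reduction of a combination
  have hred : ∀ c : Fin (Fintype.card ι) → R,
      (p • (⊤ : Submodule R ↥(integralClosure R E))).mkQ (∑ i, c i • b i) =
        ∑ i, (Ideal.Quotient.mk (Ideal.span {p}) (c i)) • bbar i := by
    intro c
    rw [map_sum]
    refine Finset.sum_congr rfl fun i _ => ?_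
    rw [← hmk, hb]
  -- spanning modulo p
  have hspan : (⊤ : Submodule R ↥(integralClosure R E)) ≤
      Submodule.span R (Set.range b) ⊔ (Ideal.span {p}) • (⊤ : Submodule R ↥(integralClosure R E)) := by
    intro x _
    choose c hc using fun i => Ideal.Quotient.mk_surjective (I := Ideal.span {p})
      (bbar.repr ((p • (⊤ : Submodule R ↥(integralClosure R E))).mkQ x) i)
    have h1 : (p • (⊤ : Submodule R ↥(integralClosure R E))).mkQ (x - ∑ i, c i • b i) = 0 := by
      rw [map_sub, hred, sub_eq_zero]
      conv_lhs => rw [← bbar.sum_repr ((p • (⊤ : Submodule R ↥(integralClosure R E))).mkQ x)]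
      refine Finset.sum_congr rfl fun i _ => ?_
      rw [hc]
    rw [Submodule.mkQ_apply, Submodule.Quotient.mk_eq_zero] at h1
    rw [Submodule.ideal_span_singleton_smul]
    have h2 : x = ∑ i, c i • b i + (x - ∑ i, c i • b i) := by ring
    rw [h2]
    refine Submodule.add_mem_sup ?_ h1
    exact Submodule.sum_mem _ fun i _ =>
      Submodule.smul_mem _ _ (Submodule.subset_span ⟨i, rfl⟩)
  obtain ⟨r, hr1, hr2⟩ := Submodule.exists_sub_one_mem_and_smul_le_of_fg_of_le_sup
    (Module.Finite.fg_top (R := R) (M := ↥(integralClosure R E))) le_rfl hspan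
  -- linear independence
  have hp0 : p ≠ 0 := hp.ne_zero
  have hpE : algebraMap R E p ≠ 0 := by
    rw [IsScalarTower.algebraMap_apply R K E]
    exact (map_ne_zero_iff _ (algebraMap K E).injective).mpr
      ((map_ne_zero_iff _ (IsFractionRing.injective R K)).mpr hp0)
  have hdiv : ∀ k : ℕ, ∀ c : Fin (Fintype.card ι) → R, ∑ i, c i • b i = 0 → ∀ i, p ^ k ∣ c i := by
    intro k
    induction k with
    | zero => intro c _ i; simp
    | succ k ih =>
      intro c hc i
      have h1 : ∑ i, (Ideal.Quotient.mk (Ideal.span {p}) (c i)) • bbar i = 0 := by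
        rw [← hred, hc, map_zero]
      have h2 : ∀ i, Ideal.Quotient.mk (Ideal.span {p}) (c i) = 0 :=
        Fintype.linearIndependent_iff.mp bbar.linearIndependent _ h1
      have h3 : ∀ i, p ∣ c i := fun i =>
        Ideal.mem_span_singleton.mp (Ideal.Quotient.eq_zero_iff_mem.mp (h2 i))
      choose c' hc' using h3
      have h4 : p • ∑ i, c' i • b i = 0 := by
        rw [Finset.smul_sum, ← hc]
        refine Finset.sum_congr rfl fun i _ => ?_
        rw [smul_smul, ← hc']
      have h5 : ∑ i, c' i • b i = 0 := by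
        apply Subtype.ext
        have h6 := congrArg (Subtype.val) h4
        have h7 : (p • ∑ i, c' i • b i : ↥(integralClosure R E)).1 =
            algebraMap R E p * (∑ i, c' i • b i : ↥(integralClosure R E)).1 := by
          rw [← Algebra.smul_def]; rfl
        rw [h7] at h6
        rcases mul_eq_zero.mp h6 with h | h
        · exact absurd h hpE
        · exact h
      rw [hc' i, pow_succ']
      exact mul_dvd_mul_left p (ih c' h5 i)
  have hli : LinearIndependent R b := by
    rw [Fintype.linearIndependent_iff]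
    intro c hc i
    have hmem : c i ∈ ⨅ k : ℕ, (Ideal.span {p}) ^ k := by
      rw [Ideal.mem_iInf]
      intro k
      rw [Ideal.span_singleton_pow, Ideal.mem_span_singleton]
      exact hdiv k c hc i
    rw [Ideal.iInf_pow_eq_bot_of_isDomain _ (Ideal.IsPrime.ne_top inferInstance)] at hmem
    exact hmem
  refine ⟨Fintype.card ι, fun i => (b i : E), r, fun i => (b i).2, ?_,
    Ideal.mem_span_singleton.mp hr1, ?_⟩
  · exact hli.map' (integralClosure R E).val.toLinearMap
      (LinearMap.ker_eq_bot.mpr Subtype.val_injective)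
  · intro x hx
    have h1 : r • (⟨x, hx⟩ : ↥(integralClosure R E)) ∈ Submodule.span R (Set.range b) :=
      hr2 (Submodule.smul_mem_pointwise_smul _ r _ Submodule.mem_top)
    obtain ⟨c, hc⟩ := (Submodule.mem_span_range_iff_exists_fun R).mp h1
    refine ⟨c, ?_⟩
    have := congrArg (Subtype.val) hc
    simpa using this.symm

end Basis


section Trace

variable (R : Type*) [CommRing R] [IsDomain R] [IsIntegrallyClosed R]
variable (K : Type*) [Field K] [Algebra R K] [IsFractionRing R K]
variable (E : Type*) [Field E] [Algebra K E] [Algebra R E] [IsScalarTower R K E]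
  [FiniteDimensional K E]

/-- The trace form of `E/K` on the integral closure `B` of `R` is nondegenerate modulo the
ideal `I`: an integral `x` with `Tr(x B) ⊆ I` lies in `I B`. -/
def TraceNondegAt (I : Ideal R) : Prop :=
  ∀ x : E, IsIntegral R x →
    (∀ y : E, IsIntegral R y → ∃ a ∈ I, algebraMap R K a = Algebra.trace K E (x * y)) →
    x ∈ I • (integralClosure R E).toSubmodule

variable {R K E}

theorem exists_trace_eq {x : E} (hx : IsIntegral R x) :
    ∃ a : R, algebraMap R K a = Algebra.trace K E x :=
  IsIntegrallyClosed.isIntegral_iff.mp (Algebra.isIntegral_trace (R := R) (L := K) hx)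

theorem mem_span_singleton_smul_iff {h : R} {x : E} :
    x ∈ (Ideal.span {h}) • (integralClosure R E).toSubmodule ↔
      ∃ z : E, IsIntegral R z ∧ x = h • z := by
  rw [Submodule.ideal_span_singleton_smul, Submodule.mem_smul_pointwise_iff_exists]
  constructor
  · rintro ⟨z, hz, rfl⟩
    exact ⟨z, hz, rfl⟩
  · rintro ⟨z, hz, rfl⟩
    exact ⟨z, hz, rfl⟩

section Adapted

variable {n : ℕ} {b : Fin n → E} {r : R} (hint : ∀ i, IsIntegral R (b i))
  (hli : LinearIndependent R b)
  (hspan : ∀ x : E, IsIntegral R x → ∃ c : Fin n → R, r • x = ∑ i, c i • b i)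
  {G : Matrix (Fin n) (Fin n) R}
  (hG : ∀ i j, algebraMap R K (G i j) = Algebra.trace K E (b i * b j))

include hG in
theorem gram_symm (i j : Fin n) : G i j = G j i := by
  apply IsFractionRing.injective R K
  rw [hG, hG, mul_comm]

include hG in
theorem trace_sum_mul (v c : Fin n → R) :
    Algebra.trace K E ((∑ i, v i • b i) * (∑ j, c j • b j)) =
      algebraMap R K (∑ j, c j * (G *ᵥ v) j) := by
  have key : ∀ i j, Algebra.trace K E (v i • b i * c j • b j) =
      algebraMap R K (c j * (G j i * v i)) := by
    intro i j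
    rw [smul_mul_smul_comm, ← algebraMap_smul K (v i * c j), map_smul, smul_eq_mul,
      ← hG, gram_symm hG j i, ← map_mul]
    congr 1
    ring
  rw [Finset.sum_mul_sum]
  simp only [map_sum, key, Matrix.mulVec, dotProduct, Finset.mul_sum]
  rw [Finset.sum_comm]

include hint hli hspan hG in
/-- if the trace form is nondegenerate modulo the prime `h` (with `h ∤ r`), then `h` does not
divide the discriminant of the adapted basis -/
theorem not_dvd_det_of_traceNondegAt {h : R} (hh : Prime h) (hhr : ¬ h ∣ r)
    (hnd : TraceNondegAt R K E (Ideal.span {h})) : ¬ h ∣ G.det := by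
  classical
  intro hd
  haveI : (Ideal.span {h}).IsPrime := (Ideal.span_singleton_prime hh.ne_zero).mpr hh
  haveI : IsDomain (R ⧸ Ideal.span {h}) := Ideal.Quotient.isDomain _
  set q := Ideal.Quotient.mk (Ideal.span {h}) with hq
  have hdet : (G.map q).det = 0 := by
    rw [← RingHom.mapMatrix_apply, ← RingHom.map_det]
    exact Ideal.Quotient.eq_zero_iff_mem.mpr (Ideal.mem_span_singleton.mpr hd)
  obtain ⟨vbar, hvbar, hGv⟩ := Matrix.exists_mulVec_eq_zero_iff.mpr hdet
  choose v hv using fun i => Ideal.Quotient.mk_surjective (I := Ideal.span {h}) (vbar i)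
  have hGv' : ∀ j, h ∣ (G *ᵥ v) j := by
    intro j
    rw [← Ideal.mem_span_singleton, ← Ideal.Quotient.eq_zero_iff_mem]
    have h1 : q ((G *ᵥ v) j) = (G.map q *ᵥ vbar) j := by
      rw [Matrix.mulVec, Matrix.mulVec, dotProduct, dotProduct, map_sum]
      refine Finset.sum_congr rfl fun i _ => ?_
      rw [map_mul, Matrix.map_apply, hv]
    rw [← hq, h1, hGv]
    rfl
  set x : E := ∑ i, v i • b i with hx
  have hxint : IsIntegral R x :=
    IsIntegral.sum _ fun i _ => (hint i).smul (v i)
  have hxmem : x ∈ (Ideal.span {h}) • (integralClosure R E).toSubmodule := by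
    refine hnd x hxint fun y hy => ?_
    obtain ⟨c, hc⟩ := hspan y hy
    obtain ⟨t, ht⟩ := exists_trace_eq (R := R) (K := K) (hxint.mul hy)
    refine ⟨t, ?_, ht⟩
    rw [Ideal.mem_span_singleton]
    have h1 : algebraMap R K (r * t) = algebraMap R K (∑ j, c j * (G *ᵥ v) j) := by
      rw [← trace_sum_mul hG v c, ← hc, map_mul, ht, mul_smul_comm, ← algebraMap_smul K r,
        map_smul, smul_eq_mul]
    have h2 : r * t = ∑ j, c j * (G *ᵥ v) j := IsFractionRing.injective R K h1
    have h3 : h ∣ r * t := by
      rw [h2]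
      exact Finset.dvd_sum fun j _ => Dvd.dvd.mul_left (hGv' j) _
    exact (hh.dvd_or_dvd h3).resolve_left hhr
  obtain ⟨z, hz, hxz⟩ := mem_span_singleton_smul_iff.mp hxmem
  obtain ⟨c', hc'⟩ := hspan z hz
  have h4 : ∑ i, (r * v i - h * c' i) • b i = 0 := by
    have h5 : ∑ i, (r * v i - h * c' i) • b i = r • x - h • (r • z) := by
      rw [hc', hx, Finset.smul_sum, Finset.smul_sum, ← Finset.sum_sub_distrib]
      refine Finset.sum_congr rfl fun i _ => ?_
      rw [sub_smul, mul_smul, mul_smul]
    rw [h5, hxz, smul_comm]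
    exact sub_self _
  have h6 : ∀ i, r * v i - h * c' i = 0 := Fintype.linearIndependent_iff.mp hli _ h4
  apply hvbar
  funext i
  rw [← hv i]
  show q (v i) = 0
  rw [Ideal.Quotient.eq_zero_iff_mem, Ideal.mem_span_singleton]
  have h7 : h ∣ r * v i := ⟨c' i, sub_eq_zero.mp (h6 i)⟩
  exact (hh.dvd_or_dvd h7).resolve_left hhr

end Adapted

end Trace


end Fermat.Agent.H91
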