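import Mathlib
import Fermat.Prelude.Def_ModularCurve_IgusaScheme

set_option autoImplicit false
set_option linter.style.haveILetI false
set_option linter.unusedVariables false

open AlgebraicGeometry CategoryTheory CategoryTheory.Limits ModularCurve ModularCurve.IgusaScheme
open scoped TensorProduct

noncomputable section

namespace Fermat.Agent.H91

/-- A space covered by two irreducible open subsets with a common point is irreducible. -/
theorem irreducibleSpace_of_two_opens {X : Type*} [TopologicalSpace X] {U V : Set X}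
    (hU : IsOpen U) (hV : IsOpen V) (hUV : U ∪ V = Set.univ)
    (hUi : IsPreirreducible U) (hVi : IsPreirreducible V) (hne : (U ∩ V).Nonempty) :
    IrreducibleSpace X := by
  have key : ∀ A B : Set X, IsOpen A → IsOpen B → (U ∩ A).Nonempty → (V ∩ B).Nonempty →
      (A ∩ B).Nonempty := by
    intro A B hA hB hUA hVB
    -- A meets V
    have h1 : (U ∩ (A ∩ V)).Nonempty := hUi A V hA hV hUA hne
    have h2 : (V ∩ A).Nonempty := by
      obtain ⟨x, -, hxA, hxV⟩ := h1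
      exact ⟨x, hxV, hxA⟩
    obtain ⟨x, -, hx⟩ := hVi A B hA hB h2 hVB
    exact ⟨x, hx⟩
  have hpre : PreirreducibleSpace X := by
    refine ⟨fun A B hA hB hAne hBne => ?_⟩
    obtain ⟨a, -, ha⟩ := hAne
    obtain ⟨b, -, hb⟩ := hBne
    have ha' : a ∈ U ∪ V := hUV ▸ Set.mem_univ a
    have hb' : b ∈ U ∪ V := hUV ▸ Set.mem_univ b
    rw [Set.univ_inter]
    rcases ha' with haU | haV <;> rcases hb' with hbU | hbV
    · obtain ⟨x, -, hx⟩ := hUi A B hA hB ⟨a, haU, ha⟩ ⟨b, hbU, hb⟩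
      exact ⟨x, hx⟩
    · exact key A B hA hB ⟨a, haU, ha⟩ ⟨b, hbV, hb⟩
    · have := key B A hB hA ⟨b, hbU, hb⟩ ⟨a, haV, ha⟩
      rwa [Set.inter_comm]
    · obtain ⟨x, -, hx⟩ := hVi A B hA hB ⟨a, haV, ha⟩ ⟨b, hbV, hb⟩
      exact ⟨x, hx⟩
  obtain ⟨x, -⟩ := hne
  exact { toPreirreducibleSpace := hpre, toNonempty := ⟨x⟩ }


variable (N : ℕ) [NeZero N] (ℓ : ℕ) [Fact ℓ.Prime]

/-- The two-chart open cover of the Igusa scheme. -/
def igusaCover2 : (ModularCurve.IgusaScheme N ℓ).OpenCover :=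
  Scheme.Cover.mkOfCovers Bool (fun b => cond b (XFin N ℓ) (XInf N ℓ))
    (fun b => match b with
      | true => ιFin N ℓ
      | false => ιInf N ℓ)
    (fun x => by
      rcases mem_range_ιFin_or_mem_range_ιInf N ℓ x with ⟨y, hy⟩ | ⟨y, hy⟩
      · exact ⟨true, y, hy⟩
      · exact ⟨false, y, hy⟩)
    (fun b => by
      cases b
      · exact isOpenImmersion_ιInf N ℓ
      · exact isOpenImmersion_ιFin N ℓ)

variable (K : Type) [Field K] [Algebra ↥(GaloisRep.ratLocalizedAt ℓ) K]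

/-- The base-change morphism `Spec K ⟶ Spec ℤ_(ℓ)`. -/
abbrev igusaBaseK : Spec (CommRingCat.of K) ⟶ Spec (CommRingCat.of ↥(GaloisRep.ratLocalizedAt ℓ)) :=
  Spec.map (CommRingCat.ofHom (algebraMap ↥(GaloisRep.ratLocalizedAt ℓ) K))

/-- The finite chart of the fibre. -/
def igusaChartFinIso :
    pullback (ιFin N ℓ ≫ igusaTo N ℓ) (igusaBaseK ℓ K) ≅
      Spec (CommRingCat.of (chartAlgFin N ℓ ⊗[↥(GaloisRep.ratLocalizedAt ℓ)] K)) :=
  pullback.congrHom (ιFin_igusaTo N ℓ) rfl ≪≫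
    pullbackSpecIso ↥(GaloisRep.ratLocalizedAt ℓ) (chartAlgFin N ℓ) K

/-- The infinite chart of the fibre. -/
def igusaChartInfIso :
    pullback (ιInf N ℓ ≫ igusaTo N ℓ) (igusaBaseK ℓ K) ≅
      Spec (CommRingCat.of (chartAlgInf N ℓ ⊗[↥(GaloisRep.ratLocalizedAt ℓ)] K)) :=
  pullback.congrHom (ιInf_igusaTo N ℓ) rfl ≪≫
    pullbackSpecIso ↥(GaloisRep.ratLocalizedAt ℓ) (chartAlgInf N ℓ) K

theorem igusa_pullback_isIntegral
    (hFin : IsDomain (chartAlgFin N ℓ ⊗[↥(GaloisRep.ratLocalizedAt ℓ)] K))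
    (hInf : IsDomain (chartAlgInf N ℓ ⊗[↥(GaloisRep.ratLocalizedAt ℓ)] K))
    (hMid : Nontrivial (chartAlgMid N ℓ ⊗[↥(GaloisRep.ratLocalizedAt ℓ)] K)) :
    IsIntegral (pullback (igusaTo N ℓ)
      (Spec.map (CommRingCat.ofHom (algebraMap ↥(GaloisRep.ratLocalizedAt ℓ) K)))) := by
  set g := igusaBaseK ℓ K with hg
  let 𝒱 := Scheme.Pullback.openCoverOfLeft (igusaCover2 N ℓ) (igusaTo N ℓ) g
  have hXt : IsIntegral (pullback (ιFin N ℓ ≫ igusaTo N ℓ) g) := by
    haveI : IsIntegral (Spec (CommRingCat.of (chartAlgFin N ℓ ⊗[↥(GaloisRep.ratLocalizedAt ℓ)] K))) :=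
      (affine_isIntegral_iff _).mpr hFin
    obtain ⟨x⟩ := (this).nonempty
    haveI : Nonempty ↥(pullback (ιFin N ℓ ≫ igusaTo N ℓ) g) :=
      ⟨(igusaChartFinIso N ℓ K).inv.base x⟩
    exact isIntegral_of_isOpenImmersion (igusaChartFinIso N ℓ K).hom
  have hXf : IsIntegral (pullback (ιInf N ℓ ≫ igusaTo N ℓ) g) := by
    haveI : IsIntegral (Spec (CommRingCat.of (chartAlgInf N ℓ ⊗[↥(GaloisRep.ratLocalizedAt ℓ)] K))) :=
      (affine_isIntegral_iff _).mpr hInf
    obtain ⟨x⟩ := (this).nonempty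
    haveI : Nonempty ↥(pullback (ιInf N ℓ ≫ igusaTo N ℓ) g) :=
      ⟨(igusaChartInfIso N ℓ K).inv.base x⟩
    exact isIntegral_of_isOpenImmersion (igusaChartInfIso N ℓ K).hom
  have hX : ∀ b, IsIntegral (𝒱.X b) := by
    intro b
    cases b
    · exact hXf
    · exact hXt
  haveI : IsReduced (pullback (igusaTo N ℓ) g) := IsReduced.of_openCover _ 𝒱
  -- the overlap point
  obtain ⟨z⟩ : Nonempty ↥(Spec (CommRingCat.of (chartAlgMid N ℓ ⊗[↥(GaloisRep.ratLocalizedAt ℓ)] K))) := by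
    have : Nonempty (PrimeSpectrum (chartAlgMid N ℓ ⊗[↥(GaloisRep.ratLocalizedAt ℓ)] K)) := inferInstance
    exact this
  -- maps from the overlap chart
  let a : Spec (CommRingCat.of (chartAlgMid N ℓ ⊗[↥(GaloisRep.ratLocalizedAt ℓ)] K)) ⟶ XMid N ℓ :=
    Spec.map (CommRingCat.ofHom (Algebra.TensorProduct.includeLeft
      (R := ↥(GaloisRep.ratLocalizedAt ℓ)) (S := ↥(GaloisRep.ratLocalizedAt ℓ))
      (A := chartAlgMid N ℓ) (B := K)).toRingHom)
  let b : Spec (CommRingCat.of (chartAlgMid N ℓ ⊗[↥(GaloisRep.ratLocalizedAt ℓ)] K)) ⟶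
      Spec (CommRingCat.of K) :=
    Spec.map (CommRingCat.ofHom (Algebra.TensorProduct.includeRight
      (R := ↥(GaloisRep.ratLocalizedAt ℓ)) (A := chartAlgMid N ℓ) (B := K)).toRingHom)
  have hbase : a ≫ Spec.map (CommRingCat.ofHom (algebraMap ↥(GaloisRep.ratLocalizedAt ℓ)
      (chartAlgMid N ℓ))) = b ≫ g := by
    simp only [a, b, hg, igusaBaseK, ← Spec.map_comp, ← CommRingCat.ofHom_comp]
    congr 2
    ext r
    simp
  have hFinBase : fFin N ℓ ≫ ιFin N ℓ ≫ igusaTo N ℓ =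
      Spec.map (CommRingCat.ofHom (algebraMap ↥(GaloisRep.ratLocalizedAt ℓ) (chartAlgMid N ℓ))) := by
    rw [ιFin_igusaTo, ← Spec.map_comp, ← CommRingCat.ofHom_comp]
    congr 2
  have hInfBase : fInf N ℓ ≫ ιInf N ℓ ≫ igusaTo N ℓ =
      Spec.map (CommRingCat.ofHom (algebraMap ↥(GaloisRep.ratLocalizedAt ℓ) (chartAlgMid N ℓ))) := by
    rw [ιInf_igusaTo, ← Spec.map_comp, ← CommRingCat.ofHom_comp]
    congr 2
  have h1 : (a ≫ fFin N ℓ) ≫ ιFin N ℓ ≫ igusaTo N ℓ = b ≫ g := by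
    rw [Category.assoc, hFinBase, hbase]
  have h2 : (a ≫ fInf N ℓ) ≫ ιInf N ℓ ≫ igusaTo N ℓ = b ≫ g := by
    rw [Category.assoc, hInfBase, hbase]
  let mFin := pullback.lift (a ≫ fFin N ℓ) b h1
  let mInf := pullback.lift (a ≫ fInf N ℓ) b h2
  let uFin : pullback (ιFin N ℓ ≫ igusaTo N ℓ) g ⟶ pullback (igusaTo N ℓ) g :=
    pullback.map (ιFin N ℓ ≫ igusaTo N ℓ) g (igusaTo N ℓ) g (ιFin N ℓ) (𝟙 _) (𝟙 _)
      (by simp) (by simp)
  let uInf : pullback (ιInf N ℓ ≫ igusaTo N ℓ) g ⟶ pullback (igusaTo N ℓ) g :=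
    pullback.map (ιInf N ℓ ≫ igusaTo N ℓ) g (igusaTo N ℓ) g (ιInf N ℓ) (𝟙 _) (𝟙 _)
      (by simp) (by simp)
  have huFin : 𝒱.f true = uFin := rfl
  have huInf : 𝒱.f false = uInf := rfl
  have hm : mFin ≫ uFin = mInf ≫ uInf := by
    apply pullback.hom_ext
    · simp only [uFin, uInf, mFin, mInf, Category.assoc, pullback.lift_fst,
        pullback.map, pullback.lift_fst_assoc]
      exact congrArg (a ≫ ·) (glue_condition N ℓ)
    · simp only [uFin, uInf, mFin, mInf, Category.assoc, pullback.lift_snd,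
        pullback.map, Category.comp_id]
  haveI hoFin : IsOpenImmersion uFin := huFin ▸ 𝒱.map_prop true
  haveI hoInf : IsOpenImmersion uInf := huInf ▸ 𝒱.map_prop false
  haveI : IrreducibleSpace ↥(pullback (igusaTo N ℓ) g) := by
    refine irreducibleSpace_of_two_opens (U := Set.range uFin.base) (V := Set.range uInf.base)
      ?_ ?_ ?_ ?_ ?_ ?_
    · exact uFin.isOpenEmbedding.isOpen_range
    · exact uInf.isOpenEmbedding.isOpen_range
    · refine Set.eq_univ_of_forall fun y => ?_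
      obtain ⟨i, x, hx⟩ := 𝒱.exists_eq y
      cases i
      · exact Or.inr ⟨x, hx⟩
      · exact Or.inl ⟨x, hx⟩
    · haveI : IrreducibleSpace ↥(pullback (ιFin N ℓ ≫ igusaTo N ℓ) g) := inferInstance
      rw [← Set.image_univ]
      exact (IrreducibleSpace.isIrreducible_univ _).isPreirreducible.image _
        uFin.continuous.continuousOn
    · haveI : IrreducibleSpace ↥(pullback (ιInf N ℓ ≫ igusaTo N ℓ) g) := inferInstance
      rw [← Set.image_univ]
      exact (IrreducibleSpace.isIrreducible_univ _).isPreirreducible.image _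
        uInf.continuous.continuousOn
    · refine ⟨(mFin ≫ uFin).base z, ⟨mFin.base z, rfl⟩, ⟨mInf.base z, ?_⟩⟩
      rw [hm]
      rfl
  exact isIntegral_of_irreducibleSpace_of_isReduced _

end Fermat.Agent.H91
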