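import Mathlib
import Fermat.Prelude.Def_ModularCurve_LaurentCoeff
import Fermat.Prelude.Def_GaloisRep_Flat

set_option autoImplicit false
set_option linter.style.haveILetI false
set_option linter.unusedVariables false
set_option linter.unusedSectionVars false

open scoped TensorProduct

noncomputable section

namespace Fermat.Agent.H91

variable (ℓ : ℕ) [Fact ℓ.Prime]

/-- Ring homomorphisms out of `ℤ_(ℓ)` into a domain of characteristic `ℓ` are unique. -/
theorem ratLocalizedAt_ringHom_ext {S : Type*} [CommRing S] [IsDomain S] [CharP S ℓ]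
    (f g : ↥(GaloisRep.ratLocalizedAt ℓ) →+* S) : f = g := by
  ext r
  obtain ⟨q, hq⟩ := r
  have hden : ((q.den : ℕ) : S) ≠ 0 := by
    intro h
    rw [CharP.cast_eq_zero_iff S ℓ] at h
    have hcop : q.den.Coprime ℓ := hq
    have := Nat.Coprime.eq_one_of_dvd hcop.symm h
    exact (Fact.out : ℓ.Prime).one_lt.ne' this
  have hmul : ((q.den : ℕ) : ↥(GaloisRep.ratLocalizedAt ℓ)) * ⟨q, hq⟩ =
      ((q.num : ℤ) : ↥(GaloisRep.ratLocalizedAt ℓ)) := by
    apply Subtype.ext
    push_cast
    exact Rat.den_mul_eq_num q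
  have hf := congrArg f hmul
  have hg := congrArg g hmul
  rw [map_mul, map_natCast, map_intCast] at hf hg
  exact mul_left_cancel₀ hden (hf.trans hg.symm)

section Tensor

variable {A : Type*} [CommRing A] [Algebra ↥(GaloisRep.ratLocalizedAt ℓ) A]
variable (red : A →+* LaurentSeries (ZMod ℓ))
variable (K : Type*) [Field K] [CharP K ℓ] [Algebra ↥(GaloisRep.ratLocalizedAt ℓ) K]

instance charP_laurentSeries : CharP (LaurentSeries K) ℓ :=
  charP_of_injective_algebraMap (algebraMap K (LaurentSeries K)).injective ℓ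

/-- The coefficientwise reduction `A → K((q))`. -/
def redK : A →+* LaurentSeries K :=
  (ModularCurve.coeffMap (ZMod.castHom (dvd_refl ℓ) K)).comp red

/-- The comparison map `A ⊗ K → K((q))`. -/
def tensorToLaurent : A ⊗[↥(GaloisRep.ratLocalizedAt ℓ)] K →+* LaurentSeries K :=
  letI : Algebra ↥(GaloisRep.ratLocalizedAt ℓ) (LaurentSeries K) :=
    ((algebraMap K (LaurentSeries K)).comp (algebraMap ↥(GaloisRep.ratLocalizedAt ℓ) K)).toAlgebra
  (Algebra.TensorProduct.productMap
    (R := ↥(GaloisRep.ratLocalizedAt ℓ))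
    (A := A) (B := K) (S := LaurentSeries K)
    { toRingHom := redK ℓ red K
      commutes' := fun r => by
        have := ratLocalizedAt_ringHom_ext ℓ
          ((redK ℓ red K).comp (algebraMap ↥(GaloisRep.ratLocalizedAt ℓ) A))
          ((algebraMap K (LaurentSeries K)).comp (algebraMap ↥(GaloisRep.ratLocalizedAt ℓ) K))
        exact congrArg (fun f => f r) this }
    { toRingHom := algebraMap K (LaurentSeries K)
      commutes' := fun r => rfl }).toRingHom

theorem tensorToLaurent_tmul (a : A) (k : K) :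
    tensorToLaurent ℓ red K (a ⊗ₜ k) = redK ℓ red K a * algebraMap K (LaurentSeries K) k := by
  simp [tensorToLaurent]

end Tensor

section Inj

variable {A : Type*} [CommRing A] [Algebra ↥(GaloisRep.ratLocalizedAt ℓ) A]
variable (red : A →+* LaurentSeries (ZMod ℓ))
variable (K : Type*) [Field K] [CharP K ℓ] [Algebra ↥(GaloisRep.ratLocalizedAt ℓ) K]

theorem redK_coeff (a : A) (m : ℤ) :
    (redK ℓ red K a).coeff m = ZMod.castHom (dvd_refl ℓ) K ((red a).coeff m) := rfl

theorem tensorToLaurent_tmul_coeff (a : A) (k : K) (m : ℤ) :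
    (tensorToLaurent ℓ red K (a ⊗ₜ k)).coeff m =
      ZMod.castHom (dvd_refl ℓ) K ((red a).coeff m) * k := by
  rw [tensorToLaurent_tmul, ModularCurve.algebraMap_laurentSeries_eq_single,
    HahnSeries.coeff_mul_single_zero, redK_coeff]

omit [CharP K ℓ] in
theorem natCast_smul_eq (n : ℕ) (k : K) :
    ((n : ↥(GaloisRep.ratLocalizedAt ℓ)) • k) = (n : K) * k := by
  rw [Algebra.smul_def, map_natCast]

omit [CharP K ℓ] in
theorem tmul_natCast_mul (n : ℕ) (a : A) (k : K) :
    a ⊗ₜ[↥(GaloisRep.ratLocalizedAt ℓ)] ((n : K) * k) = ((n : A) * a) ⊗ₜ k := by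
  rw [← natCast_smul_eq ℓ K n k, ← TensorProduct.smul_tmul, Algebra.smul_def, map_natCast]

theorem tensor_exists_rep (x : A ⊗[↥(GaloisRep.ratLocalizedAt ℓ)] K) :
    letI : Algebra (ZMod ℓ) K := ZMod.algebra K ℓ
    ∃ f : Module.Basis.ofVectorSpaceIndex (ZMod ℓ) K →₀ A,
      x = f.sum (fun i a => a ⊗ₜ[↥(GaloisRep.ratLocalizedAt ℓ)]
        (Module.Basis.ofVectorSpace (ZMod ℓ) K i)) := by
  classical
  letI : Algebra (ZMod ℓ) K := ZMod.algebra K ℓ
  haveI : NeZero ℓ := ⟨(Fact.out : ℓ.Prime).ne_zero⟩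
  induction x using TensorProduct.induction_on with
  | zero => exact ⟨0, by simp⟩
  | tmul a k =>
    refine ⟨(Module.Basis.ofVectorSpace (ZMod ℓ) K).repr k |>.mapRange
      (fun c => ((c.val : ℕ) : A) * a) (by simp), ?_⟩
    conv_lhs => rw [← (Module.Basis.ofVectorSpace (ZMod ℓ) K).linearCombination_repr k]
    rw [Finsupp.linearCombination_apply, Finsupp.sum, TensorProduct.tmul_sum,
      Finsupp.sum_mapRange_index (by simp)]
    rw [Finsupp.sum]
    refine Finset.sum_congr rfl fun i _ => ?_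
    rw [← tmul_natCast_mul ℓ K]
    congr 1
    rw [Algebra.smul_def]
    congr 1
    show ZMod.castHom _ K _ = _
    rw [ZMod.castHom_apply, ZMod.cast_eq_val]
  | add x y hx hy =>
    obtain ⟨f, rfl⟩ := hx
    obtain ⟨g, rfl⟩ := hy
    refine ⟨f + g, ?_⟩
    rw [Finsupp.sum_add_index'] <;> simp [TensorProduct.add_tmul]

end Inj

section Main

variable {A : Type*} [CommRing A] [Algebra ↥(GaloisRep.ratLocalizedAt ℓ) A]
variable (red : A →+* LaurentSeries (ZMod ℓ))
variable (K : Type*) [Field K] [CharP K ℓ] [Algebra ↥(GaloisRep.ratLocalizedAt ℓ) K]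

theorem tensorToLaurent_injective (hker : RingHom.ker red = Ideal.span {(ℓ : A)}) :
    Function.Injective (tensorToLaurent ℓ red K) := by
  classical
  letI : Algebra (ZMod ℓ) K := ZMod.algebra K ℓ
  haveI : NeZero ℓ := ⟨(Fact.out : ℓ.Prime).ne_zero⟩
  rw [injective_iff_map_eq_zero]
  intro x hx
  obtain ⟨f, rfl⟩ := tensor_exists_rep ℓ K x
  rw [Finsupp.sum] at hx ⊢
  have hcoef : ∀ m : ℤ, ∑ i ∈ f.support,
      ((red (f i)).coeff m) • (Module.Basis.ofVectorSpace (ZMod ℓ) K i) = 0 := by
    intro m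
    have := congrArg (fun y => HahnSeries.coeff y m) hx
    simp only [map_sum, HahnSeries.coeff_zero] at this
    rw [← this, HahnSeries.coeff_sum]
    refine Finset.sum_congr rfl fun i _ => ?_
    rw [tensorToLaurent_tmul_coeff, Algebra.smul_def]
    rfl
  have hli := (Module.Basis.ofVectorSpace (ZMod ℓ) K).linearIndependent
  rw [linearIndependent_iff'] at hli
  refine Finset.sum_eq_zero fun i hi => ?_
  have hred : red (f i) = 0 := by
    ext m
    exact hli f.support (fun i => (red (f i)).coeff m) (hcoef m) i hi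
  have hmem : f i ∈ Ideal.span {(ℓ : A)} := hker ▸ (RingHom.mem_ker.mpr hred)
  obtain ⟨a', ha'⟩ := Ideal.mem_span_singleton'.mp hmem
  rw [← ha', mul_comm, ← tmul_natCast_mul ℓ K, CharP.cast_eq_zero K ℓ, zero_mul,
    TensorProduct.tmul_zero]

theorem isDomain_tensor_of_red (hker : RingHom.ker red = Ideal.span {(ℓ : A)}) :
    IsDomain (A ⊗[↥(GaloisRep.ratLocalizedAt ℓ)] K) :=
  (tensorToLaurent_injective ℓ red K hker).isDomain _

end Main

end Fermat.Agent.H91
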