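import Mathlib
import Fermat.Prelude.Def_ModularCurve_IgusaScheme
import Fermat.Prelude.Def_ModularCurve_X0ModL

/-!
# IG-C (q-expansion principle): interface statements for the split C1 / C2 / C3 / GLUE

* `GaussDatum N ℓ`   : the Gauss valuation ring `O ⊆ ℚ((q))` with its reduction map  ([C1])
* `C2KappaStatement`, `C2ClosedStatement`, `C2GaussStatement` : Gauss-type facts on `ℚ(j)` ([C2])
* `C3DegreeStatement`, `C3LiftStatement` : degree bookkeeping and lifting of the residue field
  ([C3])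
-/

set_option autoImplicit false

noncomputable section

open ModularCurve ModularCurve.IgusaScheme

namespace Fermat.Agent.H91

/-- **[C1]** The Gauss valuation ring of `ℚ((q))` at `ℓ`, restricted to what is needed on the
function field `F = modularFunctionFieldFull N`. -/
structure GaussDatum (N : ℕ) [NeZero N] (ℓ : ℕ) [Fact ℓ.Prime] where
  /-- the ring of `ℓ`-integral elements -/
  O : Subring (LaurentSeries ℚ)
  /-- reduction modulo `ℓ` -/
  Red : O →+* LaurentSeries (ZMod ℓ)
  /-- the kernel of the reduction is generated by `ℓ` -/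
  ker_Red : ∀ x : O, Red x = 0 ↔ ∃ y : O, x = (ℓ : O) * y
  /-- every nonzero element of the function field is a power of `ℓ` times a unit of `O` -/
  val : ∀ x ∈ modularFunctionFieldFull N, x ≠ 0 →
    ∃ (m : ℤ) (u : LaurentSeries ℚ), u ∈ O ∧ u⁻¹ ∈ O ∧ x = (ℓ : LaurentSeries ℚ) ^ m * u
  /-- integral series are in `O` and are reduced coefficientwise -/
  Red_int : ∀ a : LaurentSeries ℤ, ∃ h : coeffMap (Int.castRingHom ℚ) a ∈ O,
    Red ⟨_, h⟩ = coeffMap (Int.castRingHom (ZMod ℓ)) a

variable (N : ℕ) [NeZero N] (ℓ : ℕ) [Fact ℓ.Prime]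

/-- the subfield `ℚ(j)` of the function field `F` -/
abbrev jField : IntermediateField ℚ ↥(modularFunctionFieldFull N) :=
  IntermediateField.adjoin ℚ {jFull N}

/-- the subfield `𝔽_ℓ(j̄)` of `𝔽_ℓ((q))` -/
abbrev jFieldBar : IntermediateField (ZMod ℓ) (LaurentSeries (ZMod ℓ)) :=
  IntermediateField.adjoin (ZMod ℓ) {jqModC (ZMod ℓ)}

/-- **[C2κ]** the reduction of an `ℓ`-integral element of `ℚ(j)` lies in `𝔽_ℓ(j̄)`. -/
def C2KappaStatement : Prop :=
  ∀ (D : GaussDatum N ℓ) (c : LaurentSeries ℚ), c ∈ IntermediateField.adjoin ℚ {jq} →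
    ∀ hc : c ∈ D.O, D.Red ⟨c, hc⟩ ∈ jFieldBar ℓ

/-- **[C2a]** `R[t]` is integrally closed in `ℚ(j)`, elementwise form: the minimal polynomial
over `ℚ(j)` of an element of `F` integral over `R[t]` has its coefficients in `R[t]`
(`t = j` or `t = j⁻¹`). -/
def C2ClosedStatement : Prop :=
  ∀ t : ↥(modularFunctionFieldFull N), (t = jFull N ∨ t = (jFull N)⁻¹) →
    ∀ f : ↥(modularFunctionFieldFull N),
      IsIntegral (Algebra.adjoin ↥(GaloisRep.ratLocalizedAt ℓ) ({t} : Set ↥(modularFunctionFieldFull N))) f →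
      ∀ i : ℕ, algebraMap ↥(jField N) ↥(modularFunctionFieldFull N)
          ((minpoly ↥(jField N) f).coeff i) ∈
        Algebra.adjoin ↥(GaloisRep.ratLocalizedAt ℓ) ({t} : Set ↥(modularFunctionFieldFull N))

/-- **[C2b]** Gauss lemma: an element of `R[t]` which is divisible by `ℓ` in `O` is divisible by
`ℓ` in `R[t]` (`t = j` or `t = j⁻¹`). -/
def C2GaussStatement : Prop :=
  ∀ (D : GaussDatum N ℓ) (t : ↥(modularFunctionFieldFull N)),
    (t = jFull N ∨ t = (jFull N)⁻¹) →
    ∀ b : ↥(modularFunctionFieldFull N),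
      b ∈ Algebra.adjoin ↥(GaloisRep.ratLocalizedAt ℓ) ({t} : Set ↥(modularFunctionFieldFull N)) →
      (b : LaurentSeries ℚ) * ((ℓ : LaurentSeries ℚ))⁻¹ ∈ D.O →
      b * ((ℓ : ↥(modularFunctionFieldFull N)))⁻¹ ∈
        Algebra.adjoin ↥(GaloisRep.ratLocalizedAt ℓ) ({t} : Set ↥(modularFunctionFieldFull N))

/-- **[C3a]** degree bookkeeping: from the two `relrank` hypotheses, `F` is finite over `ℚ(j)`
and there are `[F : ℚ(j)]` elements of `F̄ = modularFunctionFieldFullC (ZMod ℓ) N` which are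
linearly independent over `𝔽_ℓ(j̄)`. -/
def C3DegreeStatement : Prop :=
  IntermediateField.relrank (IntermediateField.adjoin ℚ {jq}) (modularFunctionFieldFull N)
      ≤ IntermediateField.relrank (IntermediateField.adjoin (ZMod ℓ) {jqModC (ZMod ℓ)})
          (modularFunctionFieldFullC (ZMod ℓ) N) →
  IntermediateField.relrank (IntermediateField.adjoin ℚ {jq})
      (modularFunctionFieldFull N) < Cardinal.aleph0 →
  FiniteDimensional ↥(jField N) ↥(modularFunctionFieldFull N) ∧
    ∃ w : Fin (Module.finrank ↥(jField N) ↥(modularFunctionFieldFull N)) →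
        LaurentSeries (ZMod ℓ),
      (∀ i, w i ∈ modularFunctionFieldFullC (ZMod ℓ) N) ∧
        LinearIndependent ↥(jFieldBar ℓ) w

/-- **[C3b]** every element of `F̄` is the reduction of an `ℓ`-integral element of `F`. -/
def C3LiftStatement : Prop :=
  ∀ (D : GaussDatum N ℓ) (y : LaurentSeries (ZMod ℓ)),
    y ∈ modularFunctionFieldFullC (ZMod ℓ) N →
    ∃ (x : LaurentSeries ℚ) (_ : x ∈ modularFunctionFieldFull N) (hx : x ∈ D.O),
      D.Red ⟨x, hx⟩ = y

end Fermat.Agent.H91
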