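import Mathlib

set_option autoImplicit false

namespace Fermat.Agent.H91

section Abstract

variable {F₀ F : Type*} [Field F₀] [Field F] [Algebra F₀ F]
  (O : Subring F) (ℓ : F₀)

/-- nonnegative powers of `ℓ` lie in `O` -/
theorem zpow_mem_of_nonneg (hℓO : algebraMap F₀ F ℓ ∈ O) {m : ℤ} (hm : 0 ≤ m) :
    (algebraMap F₀ F ℓ) ^ m ∈ O := by
  lift m to ℕ using hm
  rw [zpow_natCast]
  exact pow_mem hℓO m

/-- `O` is a valuation ring of `F`. -/
theorem mem_or_inv_mem_of_unif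
    (hunif : ∀ x : F, x ≠ 0 →
      ∃ (m : ℤ) (u : F), u ∈ O ∧ u⁻¹ ∈ O ∧ x = (algebraMap F₀ F ℓ) ^ m * u)
    (hℓO : algebraMap F₀ F ℓ ∈ O) (x : F) : x ∈ O ∨ x⁻¹ ∈ O := by
  rcases eq_or_ne x 0 with rfl | hx
  · exact Or.inl (zero_mem _)
  obtain ⟨m, u, hu, hu', rfl⟩ := hunif x hx
  rcases le_total 0 m with hm | hm
  · exact Or.inl (mul_mem (zpow_mem_of_nonneg O ℓ hℓO hm) hu)
  · right
    rw [mul_inv, ← zpow_neg]
    exact mul_mem (zpow_mem_of_nonneg O ℓ hℓO (neg_nonneg.mpr hm)) hu'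

/-- scaling lemma: a nonzero finite family in `F₀` can be scaled by a power of `ℓ` into `O`
with one unit entry. -/
theorem exists_scaling {n : ℕ}
    (hunif : ∀ x : F, x ≠ 0 →
      ∃ (m : ℤ) (u : F), u ∈ O ∧ u⁻¹ ∈ O ∧ x = (algebraMap F₀ F ℓ) ^ m * u)
    (hℓO : algebraMap F₀ F ℓ ∈ O) (hℓ : ℓ ≠ 0)
    (c : Fin n → F₀) (hc : c ≠ 0) :
    ∃ m : ℤ, (∀ i, (algebraMap F₀ F ℓ) ^ m * algebraMap F₀ F (c i) ∈ O) ∧
      ∃ i₀, c i₀ ≠ 0 ∧ ((algebraMap F₀ F ℓ) ^ m * algebraMap F₀ F (c i₀))⁻¹ ∈ O := by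
  classical
  have hL0 : algebraMap F₀ F ℓ ≠ 0 := (map_ne_zero _).mpr hℓ
  -- valuation function
  have hex : ∀ i, ∃ (m : ℤ), c i ≠ 0 →
      ∃ u : F, u ∈ O ∧ u⁻¹ ∈ O ∧ algebraMap F₀ F (c i) = (algebraMap F₀ F ℓ) ^ m * u := by
    intro i
    by_cases hi : c i = 0
    · exact ⟨0, fun h => absurd hi h⟩
    · obtain ⟨m, u, hu, hu', h⟩ := hunif (algebraMap F₀ F (c i)) ((map_ne_zero _).mpr hi)
      exact ⟨m, fun _ => ⟨u, hu, hu', h⟩⟩
  choose val hval using hex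
  have hne : (Finset.univ.filter fun i => c i ≠ 0).Nonempty := by
    by_contra h
    rw [Finset.not_nonempty_iff_eq_empty, Finset.filter_eq_empty_iff] at h
    apply hc
    funext i
    simpa using h (Finset.mem_univ i)
  obtain ⟨i₀, hi₀, hmin⟩ := Finset.exists_min_image _ val hne
  rw [Finset.mem_filter] at hi₀
  refine ⟨-val i₀, fun i => ?_, i₀, hi₀.2, ?_⟩
  · by_cases hi : c i = 0
    · rw [hi, map_zero, mul_zero]
      exact zero_mem _
    · obtain ⟨u, hu, -, h⟩ := hval i hi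
      rw [h, ← mul_assoc, ← zpow_add₀ hL0]
      refine mul_mem (zpow_mem_of_nonneg O ℓ hℓO ?_) hu
      have := hmin i (Finset.mem_filter.mpr ⟨Finset.mem_univ _, hi⟩)
      omega
  · obtain ⟨u, -, hu', h⟩ := hval i₀ hi₀.2
    rw [h, ← mul_assoc, ← zpow_add₀ hL0, neg_add_cancel, zpow_zero, one_mul]
    exact hu'

end Abstract


section Core

variable {F₀ F : Type*} [Field F₀] [Field F] [Algebra F₀ F]
  (O : Subring F) (ℓ : F₀)
  {Kb : Type*} [Field Kb] (Red : O →+* Kb)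
  {κ : Type*} [Field κ] [Algebra κ Kb]

/-- units of `O` have nonzero reduction -/
theorem red_ne_zero_of_unit {u : F} (hu : u ∈ O) (hu' : u⁻¹ ∈ O) (hu0 : u ≠ 0) :
    Red ⟨u, hu⟩ ≠ 0 := by
  intro h
  have h1 : Red (⟨u, hu⟩ * ⟨u⁻¹, hu'⟩) = 1 := by
    rw [show (⟨u, hu⟩ * ⟨u⁻¹, hu'⟩ : O) = 1 from Subtype.ext (mul_inv_cancel₀ hu0), map_one]
  rw [map_mul, h, zero_mul] at h1
  exact zero_ne_one h1

/-- key lemma: a combination of the `v i` with coefficients in `O ∩ F₀` which reduces to zero has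
all coefficients reducing to zero -/
theorem red_coeff_eq_zero {n : ℕ} (v : Fin n → O)
    (hv : LinearIndependent κ (fun i => Red (v i)))
    (hκ : ∀ (c : F₀) (hc : algebraMap F₀ F c ∈ O),
      Red ⟨algebraMap F₀ F c, hc⟩ ∈ Set.range (algebraMap κ Kb))
    (c : Fin n → F₀) (hc : ∀ i, algebraMap F₀ F (c i) ∈ O)
    (h0 : Red (∑ i, ⟨algebraMap F₀ F (c i), hc i⟩ * v i) = 0) (i : Fin n) :
    Red ⟨algebraMap F₀ F (c i), hc i⟩ = 0 := by
  choose k hk using fun i => hκ (c i) (hc i)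
  rw [map_sum] at h0
  have h1 : ∑ i, k i • Red (v i) = 0 := by
    rw [← h0]
    refine Finset.sum_congr rfl fun i _ => ?_
    rw [map_mul, ← hk i, Algebra.smul_def]
  have h2 := (Fintype.linearIndependent_iff.mp hv) k h1 i
  rw [← hk i, h2, map_zero]

variable [FiniteDimensional F₀ F]

/-- Step (3): coordinates of elements of `O` in the basis `v` lie in `O`. -/
theorem exists_coord_mem
    (hunif : ∀ x : F, x ≠ 0 →
      ∃ (m : ℤ) (u : F), u ∈ O ∧ u⁻¹ ∈ O ∧ x = (algebraMap F₀ F ℓ) ^ m * u)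
    (hℓO : algebraMap F₀ F ℓ ∈ O) (hℓ : ℓ ≠ 0)
    (hRedℓ : Red ⟨algebraMap F₀ F ℓ, hℓO⟩ = 0)
    (hκ : ∀ (c : F₀) (hc : algebraMap F₀ F c ∈ O),
      Red ⟨algebraMap F₀ F c, hc⟩ ∈ Set.range (algebraMap κ Kb))
    (v : Fin (Module.finrank F₀ F) → O) (hv : LinearIndependent κ (fun i => Red (v i)))
    (x : F) (hx : x ∈ O) :
    ∃ c : Fin (Module.finrank F₀ F) → F₀, (∀ i, algebraMap F₀ F (c i) ∈ O) ∧
      x = ∑ i, algebraMap F₀ F (c i) * (v i : F) := by
  classical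
  have hL0 : algebraMap F₀ F ℓ ≠ 0 := (map_ne_zero _).mpr hℓ
  -- sums in `O`
  have hsum : ∀ (c : Fin (Module.finrank F₀ F) → F₀) (hc : ∀ i, algebraMap F₀ F (c i) ∈ O),
      ((∑ i, ⟨algebraMap F₀ F (c i), hc i⟩ * v i : O) : F) =
        ∑ i, algebraMap F₀ F (c i) * (v i : F) := by
    intro c hc
    rw [AddSubmonoidClass.coe_finsetSum]
    rfl
  -- the `v i` are linearly independent over `F₀`
  have hli : LinearIndependent F₀ (fun i => (v i : F)) := by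
    rw [Fintype.linearIndependent_iff]
    intro c hc0
    by_contra hne
    have hcne : c ≠ 0 := fun h => hne (fun i => by rw [h]; rfl)
    obtain ⟨m, hm, i₀, hi₀, hunit⟩ := exists_scaling O ℓ hunif hℓO hℓ c hcne
    -- scaled family
    have hm' : ∀ i, algebraMap F₀ F (ℓ ^ m * c i) ∈ O := fun i => by
      rw [map_mul, map_zpow₀]; exact hm i
    have hzero : (∑ i, ⟨algebraMap F₀ F (ℓ ^ m * c i), hm' i⟩ * v i : O) = 0 := by
      apply Subtype.ext
      rw [hsum, Subring.coe_zero]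
      have : ∑ i, algebraMap F₀ F (ℓ ^ m * c i) * (v i : F) =
          (algebraMap F₀ F ℓ) ^ m * ∑ i, c i • (v i : F) := by
        rw [Finset.mul_sum]
        refine Finset.sum_congr rfl fun i _ => ?_
        rw [map_mul, map_zpow₀, Algebra.smul_def, mul_assoc]
      rw [this, hc0, mul_zero]
    have h1 := red_coeff_eq_zero O Red v hv hκ (fun i => ℓ ^ m * c i) hm'
      (by rw [hzero, map_zero]) i₀
    have hunit' : (algebraMap F₀ F (ℓ ^ m * c i₀))⁻¹ ∈ O := by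
      rw [map_mul, map_zpow₀]; exact hunit
    refine red_ne_zero_of_unit O Red (hm' i₀) hunit' ?_ h1
    exact (map_ne_zero _).mpr (mul_ne_zero (zpow_ne_zero _ hℓ) hi₀)
  -- hence they span
  have hspan := hli.span_eq_top_of_card_eq_finrank' (by simp)
  have hxs : x ∈ Submodule.span F₀ (Set.range fun i => (v i : F)) := by
    rw [hspan]; trivial
  obtain ⟨c, hc⟩ := (Submodule.mem_span_range_iff_exists_fun F₀).mp hxs
  have hxc : x = ∑ i, algebraMap F₀ F (c i) * (v i : F) := by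
    rw [← hc]
    refine Finset.sum_congr rfl fun i _ => ?_
    rw [Algebra.smul_def]
  refine ⟨c, ?_, hxc⟩
  by_cases hc0 : c = 0
  · intro i
    rw [hc0, Pi.zero_apply, map_zero]
    exact zero_mem _
  obtain ⟨m, hm, i₀, hi₀, hunit⟩ := exists_scaling O ℓ hunif hℓO hℓ c hc0
  rcases le_or_gt m 0 with hm0 | hm0
  · intro i
    have : algebraMap F₀ F (c i) =
        (algebraMap F₀ F ℓ) ^ (-m) * ((algebraMap F₀ F ℓ) ^ m * algebraMap F₀ F (c i)) := by
      rw [← mul_assoc, ← zpow_add₀ hL0, neg_add_cancel, zpow_zero, one_mul]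
    rw [this]
    exact mul_mem (zpow_mem_of_nonneg O ℓ hℓO (neg_nonneg.mpr hm0)) (hm i)
  · exfalso
    have hm' : ∀ i, algebraMap F₀ F (ℓ ^ m * c i) ∈ O := fun i => by
      rw [map_mul, map_zpow₀]; exact hm i
    -- `ℓ^m x` reduces to zero
    have hmem : (algebraMap F₀ F ℓ) ^ (m - 1) * x ∈ O :=
      mul_mem (zpow_mem_of_nonneg O ℓ hℓO (by omega)) hx
    have hval : (∑ i, ⟨algebraMap F₀ F (ℓ ^ m * c i), hm' i⟩ * v i : O) =
        ⟨algebraMap F₀ F ℓ, hℓO⟩ * ⟨(algebraMap F₀ F ℓ) ^ (m - 1) * x, hmem⟩ := by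
      apply Subtype.ext
      rw [hsum, Subring.coe_mul]
      show _ = algebraMap F₀ F ℓ * ((algebraMap F₀ F ℓ) ^ (m - 1) * x)
      rw [← mul_assoc, ← zpow_one_add₀ hL0, show (1 : ℤ) + (m - 1) = m by ring, hxc,
        Finset.mul_sum]
      refine Finset.sum_congr rfl fun i _ => ?_
      rw [map_mul, map_zpow₀, mul_assoc]
    have h1 := red_coeff_eq_zero O Red v hv hκ (fun i => ℓ ^ m * c i) hm'
      (by rw [hval, map_mul, hRedℓ, zero_mul]) i₀
    have hunit' : (algebraMap F₀ F (ℓ ^ m * c i₀))⁻¹ ∈ O := by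
      rw [map_mul, map_zpow₀]; exact hunit
    refine red_ne_zero_of_unit O Red (hm' i₀) hunit' ?_ h1
    exact (map_ne_zero _).mpr (mul_ne_zero (zpow_ne_zero _ hℓ) hi₀)

end Core


section Final

variable {F₀ F : Type*} [Field F₀] [Field F] [Algebra F₀ F] [FiniteDimensional F₀ F]

/-- **Abstract core of IG-C (steps (3)-(5))**. -/
theorem valuation_chart_abstract
    (O : Subring F) (ℓ : F₀) (hℓ : ℓ ≠ 0)
    (hunif : ∀ x : F, x ≠ 0 →
      ∃ (m : ℤ) (u : F), u ∈ O ∧ u⁻¹ ∈ O ∧ x = (algebraMap F₀ F ℓ) ^ m * u)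
    (hℓO : algebraMap F₀ F ℓ ∈ O)
    {Kb : Type*} [Field Kb] (Red : O →+* Kb)
    (hRedℓ : Red ⟨algebraMap F₀ F ℓ, hℓO⟩ = 0)
    (hker : ∀ x : O, Red x = 0 → (x : F) * (algebraMap F₀ F ℓ)⁻¹ ∈ O)
    {κ : Type*} [Field κ] [Algebra κ Kb]
    (hκ : ∀ (c : F₀) (hc : algebraMap F₀ F c ∈ O),
      Red ⟨algebraMap F₀ F c, hc⟩ ∈ Set.range (algebraMap κ Kb))
    (hdeg : ∃ v : Fin (Module.finrank F₀ F) → O, LinearIndependent κ (fun i => Red (v i)))
    (B : Subring F) (hBO : B ≤ O)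
    (hcl : ∀ g : F, g ∈ O → IsIntegral B (algebraMap F₀ F ℓ * g) →
      ∀ i, algebraMap F₀ F ((minpoly F₀ g).coeff i) ∈ O →
        algebraMap F₀ F ((minpoly F₀ g).coeff i) ∈ B) :
    (∀ x : F, IsIntegral B x → x ∈ O) ∧
    (∀ f : F, IsIntegral B f → ∀ hf : f ∈ O, Red ⟨f, hf⟩ = 0 →
      ∃ g : F, IsIntegral B g ∧ f = algebraMap F₀ F ℓ * g) := by
  classical
  have hL0 : algebraMap F₀ F ℓ ≠ 0 := (map_ne_zero _).mpr hℓ
  have hval := mem_or_inv_mem_of_unif O ℓ hunif hℓO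
  let 𝒪 : ValuationSubring F := { O with mem_or_inv_mem' := hval }
  -- conclusion 1
  have hint : ∀ x : F, IsIntegral B x → x ∈ O := by
    intro x hx
    have h1 : IsIntegral 𝒪 x :=
      hx.map_of_comp_eq (Subring.inclusion (show B ≤ 𝒪.toSubring from hBO)) (RingHom.id F)
        (by ext; rfl)
    obtain ⟨y, hy⟩ := (IsIntegrallyClosed.isIntegral_iff (R := 𝒪) (K := F)).mp h1
    rw [← hy]
    exact y.2
  refine ⟨hint, ?_⟩
  intro f hf hfO hRed
  obtain ⟨v, hv⟩ := hdeg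
  set g := f * (algebraMap F₀ F ℓ)⁻¹ with hg
  have hgO : g ∈ O := hker ⟨f, hfO⟩ hRed
  have hfg : f = algebraMap F₀ F ℓ * g := by
    rw [hg, mul_comm f, ← mul_assoc, mul_inv_cancel₀ hL0, one_mul]
  refine ⟨g, ?_, hfg⟩
  -- the valuation ring of `F₀`
  let 𝒪₀ : ValuationSubring F₀ := 𝒪.comap (algebraMap F₀ F)
  letI : Algebra 𝒪₀ F := ((algebraMap F₀ F).comp 𝒪₀.subtype).toAlgebra
  haveI : IsScalarTower 𝒪₀ F₀ F := IsScalarTower.of_algebraMap_eq' rfl
  -- `g` is integral over `𝒪₀`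
  have hg₀ : IsIntegral 𝒪₀ g := by
    let S : Subalgebra 𝒪₀ F := { O with algebraMap_mem' := fun c => c.2 }
    refine IsIntegral.of_mem_of_fg S ?_ g hgO
    refine ⟨Finset.univ.image (fun i => (v i : F)), ?_⟩
    apply le_antisymm
    · rw [Submodule.span_le]
      intro x hx
      simp only [Finset.coe_image, Finset.coe_univ, Set.image_univ, Set.mem_range] at hx
      obtain ⟨i, rfl⟩ := hx
      exact (v i).2
    · intro x hx
      obtain ⟨c, hc, hxc⟩ := exists_coord_mem O ℓ Red hunif hℓO hℓ hRedℓ hκ v hv x hx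
      rw [hxc]
      refine Submodule.sum_mem _ fun i _ => ?_
      have : algebraMap F₀ F (c i) * (v i : F) = (⟨c i, hc i⟩ : 𝒪₀) • (v i : F) := by
        rw [Algebra.smul_def]
        rfl
      rw [this]
      refine Submodule.smul_mem _ _ (Submodule.subset_span ?_)
      simp
  -- the minimal polynomial has coefficients in `𝒪₀`
  have hmin : minpoly F₀ g = (minpoly 𝒪₀ g).map (algebraMap 𝒪₀ F₀) :=
    minpoly.isIntegrallyClosed_eq_field_fractions' F₀ hg₀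
  have hcoeffO : ∀ i, algebraMap F₀ F ((minpoly F₀ g).coeff i) ∈ O := by
    intro i
    rw [hmin, Polynomial.coeff_map]
    exact ((minpoly 𝒪₀ g).coeff i).2
  have hcoeffB : ∀ i, algebraMap F₀ F ((minpoly F₀ g).coeff i) ∈ B :=
    fun i => hcl g hgO (hfg ▸ hf) i (hcoeffO i)
  have hgint : IsIntegral F₀ g := IsIntegral.of_finite F₀ g
  have hPB : (↑((minpoly F₀ g).map (algebraMap F₀ F)).coeffs : Set F) ⊆ B := by
    intro y hy
    rw [Finset.mem_coe, Polynomial.mem_coeffs_iff] at hy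
    obtain ⟨n, -, rfl⟩ := hy
    rw [Polynomial.coeff_map]
    exact hcoeffB n
  refine ⟨((minpoly F₀ g).map (algebraMap F₀ F)).toSubring B hPB,
    (Polynomial.monic_toSubring _ _ _).mpr ((minpoly.monic hgint).map _), ?_⟩
  rw [Polynomial.eval₂_eq_eval_map]
  have : (((minpoly F₀ g).map (algebraMap F₀ F)).toSubring B hPB).map (algebraMap B F) =
      (minpoly F₀ g).map (algebraMap F₀ F) := Polynomial.map_toSubring _ _ _
  rw [this, Polynomial.eval_map_algebraMap, minpoly.aeval]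

end Final

end Fermat.Agent.H91
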