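import Mathlib
import Fermat.Agent.H91.IgusaCAbstract
import Fermat.Agent.H91.IgusaCInterfaces
import Fermat.Agent.H27.IgC.KernelLemma

set_option autoImplicit false

noncomputable section

open ModularCurve ModularCurve.IgusaScheme

namespace Fermat.Agent.H91

section Glue

variable {N : ℕ} [NeZero N] {ℓ : ℕ} [Fact ℓ.Prime] (D : GaussDatum N ℓ)


/-- `O ∩ F` as a subring of the function field -/
def GaussDatum.OF : Subring ↥(modularFunctionFieldFull N) :=
  D.O.comap (algebraMap ↥(modularFunctionFieldFull N) (LaurentSeries ℚ))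

theorem GaussDatum.mem_OF {x : ↥(modularFunctionFieldFull N)} : x ∈ D.OF ↔ (x : LaurentSeries ℚ) ∈ D.O := Iff.rfl

/-- the reduction map on `O ∩ F` -/
def GaussDatum.RedF : D.OF →+* LaurentSeries (ZMod ℓ) :=
  D.Red.comp ((algebraMap ↥(modularFunctionFieldFull N) (LaurentSeries ℚ)).restrict D.OF D.O (fun _ hx => hx))

theorem GaussDatum.RedF_apply (x : ↥(modularFunctionFieldFull N)) (hx : x ∈ D.OF) :
    D.RedF ⟨x, hx⟩ = D.Red ⟨(x : LaurentSeries ℚ), hx⟩ := rfl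

omit [NeZero N] in
theorem ell_ne_zero_L : ((ℓ : ℕ) : LaurentSeries ℚ) ≠ 0 := by
  have h : ((ℓ : ℕ) : LaurentSeries ℚ) = algebraMap ℚ (LaurentSeries ℚ) (ℓ : ℚ) :=
    (map_natCast _ ℓ).symm
  rw [h]
  exact (map_ne_zero _).mpr (Nat.cast_ne_zero.mpr (Fact.out : ℓ.Prime).ne_zero)

omit [NeZero N] in
theorem ell_ne_zero_F : ((ℓ : ℕ) : ↥(modularFunctionFieldFull N)) ≠ 0 :=
  Nat.cast_ne_zero.mpr (Fact.out : ℓ.Prime).ne_zero

theorem GaussDatum.ell_mem : ((ℓ : ℕ) : LaurentSeries ℚ) ∈ D.O := natCast_mem _ _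

theorem GaussDatum.Red_ell : D.Red ⟨((ℓ : ℕ) : LaurentSeries ℚ), D.ell_mem⟩ = 0 := by
  rw [D.ker_Red]
  exact ⟨1, by rw [mul_one]; rfl⟩

theorem GaussDatum.div_ell_mem {x : LaurentSeries ℚ} (hx : x ∈ D.O) (h : D.Red ⟨x, hx⟩ = 0) :
    x * ((ℓ : ℕ) : LaurentSeries ℚ)⁻¹ ∈ D.O := by
  obtain ⟨y, hy⟩ := (D.ker_Red _).mp h
  have : x = ((ℓ : ℕ) : LaurentSeries ℚ) * (y : LaurentSeries ℚ) := by
    have := congrArg Subtype.val hy
    simpa using this
  rw [this, mul_comm, ← mul_assoc, inv_mul_cancel₀ ell_ne_zero_L, one_mul]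
  exact y.2

theorem GaussDatum.Red_ne_zero_of_unit {u : LaurentSeries ℚ} (hu : u ∈ D.O) (hu' : u⁻¹ ∈ D.O)
    (hu0 : u ≠ 0) : D.Red ⟨u, hu⟩ ≠ 0 :=
  red_ne_zero_of_unit D.O D.Red hu hu' hu0

theorem GaussDatum.zpow_mem {m : ℤ} (hm : 0 ≤ m) : ((ℓ : ℕ) : LaurentSeries ℚ) ^ m ∈ D.O := by
  lift m to ℕ using hm
  rw [zpow_natCast]
  exact pow_mem D.ell_mem m

/-- an `ℓ`-integral element of `F` with nonzero reduction is a unit of `O` -/
theorem GaussDatum.inv_mem_of_red_ne_zero {x : LaurentSeries ℚ}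
    (hxF : x ∈ modularFunctionFieldFull N) (hx : x ∈ D.O) (h : D.Red ⟨x, hx⟩ ≠ 0) :
    x⁻¹ ∈ D.O := by
  have hx0 : x ≠ 0 := by
    rintro rfl
    exact h (map_zero D.Red)
  obtain ⟨m, u, hu, hu', hxu⟩ := D.val x hxF hx0
  have hu0 : u ≠ 0 := by
    rintro rfl
    rw [mul_zero] at hxu
    exact hx0 hxu
  rcases lt_trichotomy m 0 with hm | hm | hm
  · -- then `u = ℓ^(-m) x` reduces to zero
    exfalso
    have hu1 : u = ((ℓ : ℕ) : LaurentSeries ℚ) * (((ℓ : ℕ) : LaurentSeries ℚ) ^ (-m - 1) * x) := by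
      rw [hxu, ← mul_assoc, ← mul_assoc, ← zpow_one_add₀ ell_ne_zero_L, ← zpow_add₀ ell_ne_zero_L]
      rw [show (1 : ℤ) + (-m - 1) + m = 0 by ring, zpow_zero, one_mul]
    have hmem : ((ℓ : ℕ) : LaurentSeries ℚ) ^ (-m - 1) * x ∈ D.O :=
      mul_mem (D.zpow_mem (by omega)) hx
    apply D.Red_ne_zero_of_unit hu hu' hu0
    have : (⟨u, hu⟩ : D.O) = ⟨_, D.ell_mem⟩ * ⟨_, hmem⟩ := Subtype.ext hu1
    rw [this, map_mul, D.Red_ell, zero_mul]
  · rw [hxu, hm, zpow_zero, one_mul]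
    exact hu'
  · exfalso
    apply h
    have hx1 : x = ((ℓ : ℕ) : LaurentSeries ℚ) * (((ℓ : ℕ) : LaurentSeries ℚ) ^ (m - 1) * u) := by
      rw [hxu, ← mul_assoc, ← zpow_one_add₀ ell_ne_zero_L]
      rw [show (1 : ℤ) + (m - 1) = m by ring]
    have hmem : ((ℓ : ℕ) : LaurentSeries ℚ) ^ (m - 1) * u ∈ D.O :=
      mul_mem (D.zpow_mem (by omega)) hu
    have : (⟨x, hx⟩ : D.O) = ⟨_, D.ell_mem⟩ * ⟨_, hmem⟩ := Subtype.ext hx1
    rw [this, map_mul, D.Red_ell, zero_mul]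


/-- `O ∩ F` is a valuation ring of `F` -/
theorem GaussDatum.mem_or_inv_mem (x : ↥(modularFunctionFieldFull N)) :
    x ∈ D.OF ∨ x⁻¹ ∈ D.OF := by
  rcases eq_or_ne x 0 with rfl | hx
  · exact Or.inl (zero_mem _)
  have hx' : (x : LaurentSeries ℚ) ≠ 0 := fun h => hx (Subtype.ext h)
  obtain ⟨m, u, hu, hu', hxu⟩ := D.val x x.2 hx'
  rcases le_total 0 m with hm | hm
  · left
    rw [D.mem_OF, hxu]
    exact mul_mem (D.zpow_mem hm) hu
  · right
    rw [D.mem_OF]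
    have : ((x⁻¹ : ↥(modularFunctionFieldFull N)) : LaurentSeries ℚ) =
        (x : LaurentSeries ℚ)⁻¹ := rfl
    rw [this, hxu, mul_inv, ← zpow_neg]
    exact mul_mem (D.zpow_mem (neg_nonneg.mpr hm)) hu'

/-- integral elements over a subring of a valuation ring lie in the valuation ring -/
theorem mem_of_isIntegral_of_val {F : Type*} [Field F] (O : Subring F)
    (hval : ∀ x : F, x ∈ O ∨ x⁻¹ ∈ O) (B : Subring F) (hBO : B ≤ O) (x : F)
    (hx : IsIntegral B x) : x ∈ O := by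
  let 𝒪 : ValuationSubring F := { O with mem_or_inv_mem' := hval }
  have h1 : IsIntegral 𝒪 x :=
    hx.map_of_comp_eq (Subring.inclusion (show B ≤ 𝒪.toSubring from hBO)) (RingHom.id F)
      (by ext; rfl)
  obtain ⟨y, hy⟩ := (IsIntegrallyClosed.isIntegral_iff (R := 𝒪) (K := F)).mp h1
  rw [← hy]
  exact y.2

/-- the natural numbers prime to `ℓ` are units of `O` -/
theorem GaussDatum.natCast_inv_mem {n : ℕ} (hn : n.Coprime ℓ) :
    ((n : ℕ) : LaurentSeries ℚ)⁻¹ ∈ D.O := by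
  have hF : ((n : ℕ) : LaurentSeries ℚ) ∈ modularFunctionFieldFull N := natCast_mem _ _
  have hO : ((n : ℕ) : LaurentSeries ℚ) ∈ D.O := natCast_mem _ _
  refine D.inv_mem_of_red_ne_zero hF hO ?_
  obtain ⟨h, hred⟩ := D.Red_int ((n : ℕ) : LaurentSeries ℤ)
  have h1 : coeffMap (Int.castRingHom ℚ) ((n : ℕ) : LaurentSeries ℤ) =
      ((n : ℕ) : LaurentSeries ℚ) := map_natCast _ n
  have h2 : D.Red ⟨((n : ℕ) : LaurentSeries ℚ), hO⟩ =
      coeffMap (Int.castRingHom (ZMod ℓ)) ((n : ℕ) : LaurentSeries ℤ) := by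
    rw [← hred]
    congr 1
    exact Subtype.ext h1.symm
  rw [h2, map_natCast]
  intro h0
  have h3 : ((n : ℕ) : LaurentSeries (ZMod ℓ)) =
      algebraMap (ZMod ℓ) (LaurentSeries (ZMod ℓ)) (n : ZMod ℓ) := (map_natCast _ n).symm
  rw [h3] at h0
  have h4 : (n : ZMod ℓ) = 0 := by
    apply (algebraMap (ZMod ℓ) (LaurentSeries (ZMod ℓ))).injective
    rw [h0, map_zero]
  rw [ZMod.natCast_eq_zero_iff] at h4
  have hℓ : ℓ.Prime := Fact.out
  have : ℓ ∣ Nat.gcd n ℓ := Nat.dvd_gcd h4 dvd_rfl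
  rw [hn] at this
  exact hℓ.one_lt.ne' (Nat.dvd_one.mp this)

/-- `ℤ_(ℓ) ⊆ O` -/
theorem GaussDatum.algebraMap_mem (r : ↥(GaloisRep.ratLocalizedAt ℓ)) :
    algebraMap ↥(GaloisRep.ratLocalizedAt ℓ) ↥(modularFunctionFieldFull N) r ∈ D.OF := by
  have h2 : algebraMap ↥(GaloisRep.ratLocalizedAt ℓ) ↥(modularFunctionFieldFull N) r =
      (((r : ℚ).num : ℤ) : ↥(modularFunctionFieldFull N)) *
        (((r : ℚ).den : ℕ) : ↥(modularFunctionFieldFull N))⁻¹ := by
    rw [IsScalarTower.algebraMap_apply ↥(GaloisRep.ratLocalizedAt ℓ) ℚ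
      ↥(modularFunctionFieldFull N)]
    show algebraMap ℚ ↥(modularFunctionFieldFull N) (r : ℚ) = _
    conv_lhs => rw [← Rat.num_div_den (r : ℚ)]
    rw [map_div₀, map_intCast, map_natCast, div_eq_mul_inv]
  rw [h2, D.mem_OF]
  have h3 : (((((r : ℚ).num : ℤ) : ↥(modularFunctionFieldFull N)) *
        (((r : ℚ).den : ℕ) : ↥(modularFunctionFieldFull N))⁻¹ : ↥(modularFunctionFieldFull N)) :
        LaurentSeries ℚ) =
      (((r : ℚ).num : ℤ) : LaurentSeries ℚ) * (((r : ℚ).den : ℕ) : LaurentSeries ℚ)⁻¹ := by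
    push_cast
    rfl
  rw [h3]
  exact mul_mem (intCast_mem _ _) (D.natCast_inv_mem r.2)

/-- `j ∈ O` with reduction `j̄` -/
theorem GaussDatum.jq_mem : (jq : LaurentSeries ℚ) ∈ D.O := by
  obtain ⟨h, -⟩ := D.Red_int (jqModC ℤ)
  rwa [coeffMap_jqModC] at h

theorem GaussDatum.Red_jq : D.Red ⟨jq, D.jq_mem⟩ = jqModC (ZMod ℓ) := by
  obtain ⟨h, hred⟩ := D.Red_int (jqModC ℤ)
  have e : coeffMap (Int.castRingHom ℚ) (jqModC ℤ) = jq := coeffMap_jqModC _
  have h1 : D.Red ⟨jq, D.jq_mem⟩ = D.Red ⟨coeffMap (Int.castRingHom ℚ) (jqModC ℤ), h⟩ := by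
    congr 1
    exact Subtype.ext e.symm
  rw [h1, hred, coeffMap_jqModC]

theorem jqModC_zmod_ne_zero : jqModC (ZMod ℓ) ≠ 0 := by
  intro h
  have := coeff_jqModC_neg_one (ZMod ℓ)
  rw [h] at this
  simp at this

theorem GaussDatum.jq_inv_mem : (jq : LaurentSeries ℚ)⁻¹ ∈ D.O := by
  refine D.inv_mem_of_red_ne_zero (jFull N).2 D.jq_mem ?_
  rw [D.Red_jq]
  exact jqModC_zmod_ne_zero

theorem GaussDatum.jFull_mem : jFull N ∈ D.OF := D.jq_mem

theorem GaussDatum.jFull_inv_mem : (jFull N)⁻¹ ∈ D.OF := D.jq_inv_mem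

/-- `O ∩ F` as a `ℤ_(ℓ)`-subalgebra -/
def GaussDatum.OFalg : Subalgebra ↥(GaloisRep.ratLocalizedAt ℓ) ↥(modularFunctionFieldFull N) :=
  { D.OF with algebraMap_mem' := D.algebraMap_mem }

theorem GaussDatum.adjoin_le (S : Set ↥(modularFunctionFieldFull N))
    (hS : S ⊆ {jFull N, (jFull N)⁻¹}) :
    (Algebra.adjoin ↥(GaloisRep.ratLocalizedAt ℓ) S).toSubring ≤ D.OF := by
  have h : Algebra.adjoin ↥(GaloisRep.ratLocalizedAt ℓ) S ≤ D.OFalg := by
    refine Algebra.adjoin_le fun x hx => ?_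
    rcases hS hx with rfl | hx'
    · exact D.jFull_mem
    · rw [Set.mem_singleton_iff] at hx'
      rw [hx']
      exact D.jFull_inv_mem
  exact fun x hx => h hx

/-- Step (4): the chart algebras are contained in `O`. -/
theorem GaussDatum.chartAlg_le (S : Set ↥(modularFunctionFieldFull N))
    (hS : S ⊆ {jFull N, (jFull N)⁻¹}) {x : ↥(modularFunctionFieldFull N)}
    (hx : x ∈ chartAlg N ℓ S) : x ∈ D.OF := by
  refine mem_of_isIntegral_of_val D.OF D.mem_or_inv_mem _ (D.adjoin_le S hS) x ?_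
  exact hx


/-- the uniformiser property on `F` in the form needed by the abstract theorem -/
theorem GaussDatum.unif (x : ↥(modularFunctionFieldFull N)) (hx : x ≠ 0) :
    ∃ (m : ℤ) (u : ↥(modularFunctionFieldFull N)), u ∈ D.OF ∧ u⁻¹ ∈ D.OF ∧
      x = (algebraMap ↥(jField N) ↥(modularFunctionFieldFull N) ((ℓ : ℕ) : ↥(jField N))) ^ m * u := by
  have hx' : (x : LaurentSeries ℚ) ≠ 0 := fun h => hx (Subtype.ext h)
  obtain ⟨m, u, hu, hu', hxu⟩ := D.val x x.2 hx'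
  have hℓF : ((ℓ : ℕ) : ↥(modularFunctionFieldFull N)) ≠ 0 := ell_ne_zero_F
  have hz : (((((ℓ : ℕ) : ↥(modularFunctionFieldFull N)) ^ (-m) :
      ↥(modularFunctionFieldFull N))) : LaurentSeries ℚ) = ((ℓ : ℕ) : LaurentSeries ℚ) ^ (-m) := by
    have h := map_zpow₀ (algebraMap ↥(modularFunctionFieldFull N) (LaurentSeries ℚ))
      ((ℓ : ℕ) : ↥(modularFunctionFieldFull N)) (-m)
    rw [map_natCast] at h
    exact h
  have hu1 : ((((ℓ : ℕ) : ↥(modularFunctionFieldFull N)) ^ (-m) * x :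
      ↥(modularFunctionFieldFull N)) : LaurentSeries ℚ) = u := by
    have : ((((ℓ : ℕ) : ↥(modularFunctionFieldFull N)) ^ (-m) * x :
      ↥(modularFunctionFieldFull N)) : LaurentSeries ℚ) =
        ((((ℓ : ℕ) : ↥(modularFunctionFieldFull N)) ^ (-m) :
          ↥(modularFunctionFieldFull N)) : LaurentSeries ℚ) * (x : LaurentSeries ℚ) := rfl
    rw [this, hz, hxu, ← mul_assoc, ← zpow_add₀ ell_ne_zero_L, neg_add_cancel, zpow_zero, one_mul]
  refine ⟨m, ((ℓ : ℕ) : ↥(modularFunctionFieldFull N)) ^ (-m) * x, ?_, ?_, ?_⟩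
  · rw [D.mem_OF, hu1]
    exact hu
  · rw [D.mem_OF]
    have : (((((ℓ : ℕ) : ↥(modularFunctionFieldFull N)) ^ (-m) * x)⁻¹ :
        ↥(modularFunctionFieldFull N)) : LaurentSeries ℚ) =
        ((((ℓ : ℕ) : ↥(modularFunctionFieldFull N)) ^ (-m) * x :
          ↥(modularFunctionFieldFull N)) : LaurentSeries ℚ)⁻¹ := rfl
    rw [this, hu1]
    exact hu'
  · rw [map_natCast, ← mul_assoc, ← zpow_add₀ hℓF, add_neg_cancel, zpow_zero, one_mul]

theorem GaussDatum.ellF_mem :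
    algebraMap ↥(jField N) ↥(modularFunctionFieldFull N) ((ℓ : ℕ) : ↥(jField N)) ∈ D.OF := by
  rw [map_natCast]
  exact natCast_mem _ _

theorem GaussDatum.RedF_ell :
    D.RedF ⟨algebraMap ↥(jField N) ↥(modularFunctionFieldFull N) ((ℓ : ℕ) : ↥(jField N)),
      D.ellF_mem⟩ = 0 := by
  rw [D.RedF_apply]
  have h := D.Red_ell
  rw [← h]
  congr 1

theorem GaussDatum.RedF_ker (x : D.OF) (h : D.RedF x = 0) :
    (x : ↥(modularFunctionFieldFull N)) *
      (algebraMap ↥(jField N) ↥(modularFunctionFieldFull N) ((ℓ : ℕ) : ↥(jField N)))⁻¹ ∈ D.OF := by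
  rw [map_natCast]
  exact D.div_ell_mem x.2 h

end Glue

section Kappa

variable {N : ℕ} [NeZero N] {ℓ : ℕ} [Fact ℓ.Prime] (D : GaussDatum N ℓ)

/-- elements of `ℚ(j) ⊆ F` lie in `ℚ(j) ⊆ ℚ((q))` -/
theorem coe_mem_adjoin_jq (c : ↥(modularFunctionFieldFull N)) (hc : c ∈ jField N) :
    (c : LaurentSeries ℚ) ∈ IntermediateField.adjoin ℚ {jq} := by
  induction hc using IntermediateField.adjoin_induction with
  | mem x hx =>
    rw [Set.mem_singleton_iff] at hx
    rw [hx]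
    exact IntermediateField.subset_adjoin ℚ _ (Set.mem_singleton _)
  | algebraMap q =>
    have : ((algebraMap ℚ ↥(modularFunctionFieldFull N) q : ↥(modularFunctionFieldFull N)) :
        LaurentSeries ℚ) = algebraMap ℚ (LaurentSeries ℚ) q := by
      rw [eq_ratCast, eq_ratCast]
      rfl
    rw [this]
    exact IntermediateField.algebraMap_mem _ q
  | add x y _ _ hx hy => exact add_mem hx hy
  | inv x _ hx => exact inv_mem hx
  | mul x y _ _ hx hy => exact mul_mem hx hy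

theorem GaussDatum.RedF_kappa (hκ : C2KappaStatement N ℓ) (c : ↥(jField N))
    (hc : algebraMap ↥(jField N) ↥(modularFunctionFieldFull N) c ∈ D.OF) :
    D.RedF ⟨algebraMap ↥(jField N) ↥(modularFunctionFieldFull N) c, hc⟩ ∈
      Set.range (algebraMap ↥(jFieldBar ℓ) (LaurentSeries (ZMod ℓ))) := by
  have h := hκ D _ (coe_mem_adjoin_jq c.1 c.2) hc
  exact ⟨⟨_, h⟩, rfl⟩

theorem GaussDatum.exists_deg (h3a : C3DegreeStatement N ℓ) (h3b : C3LiftStatement N ℓ)
    (hdeg : IntermediateField.relrank (IntermediateField.adjoin ℚ {jq})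
        (modularFunctionFieldFull N)
      ≤ IntermediateField.relrank (IntermediateField.adjoin (ZMod ℓ) {jqModC (ZMod ℓ)})
          (modularFunctionFieldFullC (ZMod ℓ) N))
    (hfin : IntermediateField.relrank (IntermediateField.adjoin ℚ {jq})
      (modularFunctionFieldFull N) < Cardinal.aleph0) :
    ∃ v : Fin (Module.finrank ↥(jField N) ↥(modularFunctionFieldFull N)) → D.OF,
      LinearIndependent ↥(jFieldBar ℓ) (fun i => D.RedF (v i)) := by
  obtain ⟨-, w, hw, hli⟩ := h3a hdeg hfin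
  choose x hxF hxO hx using fun i => h3b D (w i) (hw i)
  refine ⟨fun i => ⟨⟨x i, hxF i⟩, hxO i⟩, ?_⟩
  have : (fun i => D.RedF ⟨⟨x i, hxF i⟩, hxO i⟩) = w := by
    funext i
    exact hx i
  rw [this]
  exact hli

end Kappa




section Kernel

variable {N : ℕ} [NeZero N] {ℓ : ℕ} [Fact ℓ.Prime] (D : GaussDatum N ℓ)

/-- `c ∈ O`, `c ℓ^k ∈ R[t]` implies `c ∈ R[t]` -/
theorem GaussDatum.pow_descent (hG : C2GaussStatement N ℓ) (t : ↥(modularFunctionFieldFull N))
    (ht : t = jFull N ∨ t = (jFull N)⁻¹) :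
    ∀ (k : ℕ) (c : ↥(modularFunctionFieldFull N)), c ∈ D.OF →
      c * ((ℓ : ℕ) : ↥(modularFunctionFieldFull N)) ^ k ∈
        Algebra.adjoin ↥(GaloisRep.ratLocalizedAt ℓ) ({t} : Set ↥(modularFunctionFieldFull N)) →
      c ∈ Algebra.adjoin ↥(GaloisRep.ratLocalizedAt ℓ)
        ({t} : Set ↥(modularFunctionFieldFull N)) := by
  intro k
  induction k with
  | zero =>
    intro c _ h
    simpa using h
  | succ k ih =>
    intro c hc h
    refine ih c hc ?_
    have hℓF : ((ℓ : ℕ) : ↥(modularFunctionFieldFull N)) ≠ 0 := ell_ne_zero_F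
    have h1 := hG D t ht _ h ?_
    · have e : c * ((ℓ : ℕ) : ↥(modularFunctionFieldFull N)) ^ (k + 1) *
          (((ℓ : ℕ) : ↥(modularFunctionFieldFull N)))⁻¹ =
          c * ((ℓ : ℕ) : ↥(modularFunctionFieldFull N)) ^ k := by
        rw [pow_succ, mul_assoc, mul_assoc, mul_inv_cancel₀ hℓF, mul_one]
      rwa [e] at h1
    · have e : ((c * ((ℓ : ℕ) : ↥(modularFunctionFieldFull N)) ^ (k + 1) :
          ↥(modularFunctionFieldFull N)) : LaurentSeries ℚ) * ((ℓ : ℕ) : LaurentSeries ℚ)⁻¹ =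
          (c : LaurentSeries ℚ) * ((ℓ : ℕ) : LaurentSeries ℚ) ^ k := by
        have : ((c * ((ℓ : ℕ) : ↥(modularFunctionFieldFull N)) ^ (k + 1) :
          ↥(modularFunctionFieldFull N)) : LaurentSeries ℚ) =
            (c : LaurentSeries ℚ) * ((ℓ : ℕ) : LaurentSeries ℚ) ^ (k + 1) := by
          push_cast
          rfl
        rw [this, pow_succ, mul_assoc, mul_assoc, mul_inv_cancel₀ ell_ne_zero_L, mul_one]
      rw [e]
      exact mul_mem hc (pow_mem D.ell_mem k)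

/-- Step (5) for a single generator `t = j` or `t = j⁻¹`. -/
theorem GaussDatum.kernel_single
    (hκ : C2KappaStatement N ℓ) (hcl : C2ClosedStatement N ℓ) (hG : C2GaussStatement N ℓ)
    (h3a : C3DegreeStatement N ℓ) (h3b : C3LiftStatement N ℓ)
    (hdeg : IntermediateField.relrank (IntermediateField.adjoin ℚ {jq})
        (modularFunctionFieldFull N)
      ≤ IntermediateField.relrank (IntermediateField.adjoin (ZMod ℓ) {jqModC (ZMod ℓ)})
          (modularFunctionFieldFullC (ZMod ℓ) N))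
    (hfin : IntermediateField.relrank (IntermediateField.adjoin ℚ {jq})
      (modularFunctionFieldFull N) < Cardinal.aleph0)
    (t : ↥(modularFunctionFieldFull N)) (ht : t = jFull N ∨ t = (jFull N)⁻¹)
    (f : ↥(modularFunctionFieldFull N)) (hf : f ∈ chartAlg N ℓ {t}) (hfO : f ∈ D.OF)
    (hRed : D.RedF ⟨f, hfO⟩ = 0) :
    ∃ g : ↥(modularFunctionFieldFull N), g ∈ chartAlg N ℓ {t} ∧
      f = ((ℓ : ℕ) : ↥(modularFunctionFieldFull N)) * g := by
  have : FiniteDimensional ↥(jField N) ↥(modularFunctionFieldFull N) := (h3a hdeg hfin).1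
  have hℓ0 : ((ℓ : ℕ) : ↥(jField N)) ≠ 0 := Nat.cast_ne_zero.mpr (Fact.out : ℓ.Prime).ne_zero
  have hSsub : ({t} : Set ↥(modularFunctionFieldFull N)) ⊆ {jFull N, (jFull N)⁻¹} := by
    rcases ht with rfl | rfl
    · exact Set.singleton_subset_iff.mpr (Set.mem_insert _ _)
    · exact Set.singleton_subset_iff.mpr (Set.mem_insert_of_mem _ rfl)
  have hclB : ∀ g : ↥(modularFunctionFieldFull N), g ∈ D.OF →
      IsIntegral (Algebra.adjoin ↥(GaloisRep.ratLocalizedAt ℓ)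
        ({t} : Set ↥(modularFunctionFieldFull N))).toSubring
        (algebraMap ↥(jField N) ↥(modularFunctionFieldFull N) ((ℓ : ℕ) : ↥(jField N)) * g) →
      ∀ i, algebraMap ↥(jField N) ↥(modularFunctionFieldFull N)
          ((minpoly ↥(jField N) g).coeff i) ∈ D.OF →
        algebraMap ↥(jField N) ↥(modularFunctionFieldFull N)
          ((minpoly ↥(jField N) g).coeff i) ∈
          (Algebra.adjoin ↥(GaloisRep.ratLocalizedAt ℓ)
            ({t} : Set ↥(modularFunctionFieldFull N))).toSubring := by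
    intro g _ hint i hci
    have hint' : IsIntegral (Algebra.adjoin ↥(GaloisRep.ratLocalizedAt ℓ)
        ({t} : Set ↥(modularFunctionFieldFull N)))
        (algebraMap ↥(jField N) ↥(modularFunctionFieldFull N) ((ℓ : ℕ) : ↥(jField N)) * g) := hint
    have hC := hcl t ht _ hint' i
    have hgint : IsIntegral ↥(jField N) g := IsIntegral.of_finite _ g
    rw [Fermat.Agent.H27.minpoly_smul_eq_scaleRoots _ hℓ0 g hgint, Polynomial.coeff_scaleRoots,
      map_mul, map_pow, map_natCast] at hC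
    exact D.pow_descent hG t ht _ _ hci hC
  obtain ⟨g, hg, hfg⟩ := (valuation_chart_abstract D.OF ((ℓ : ℕ) : ↥(jField N)) hℓ0 D.unif
    D.ellF_mem D.RedF D.RedF_ell D.RedF_ker (κ := ↥(jFieldBar ℓ)) (D.RedF_kappa hκ)
    (D.exists_deg h3a h3b hdeg hfin) _ (D.adjoin_le {t} hSsub) hclB).2 f hf hfO hRed
  refine ⟨g, hg, ?_⟩
  rw [hfg, map_natCast]

end Kernel


section Final

variable {N : ℕ} [NeZero N] {ℓ : ℕ} [Fact ℓ.Prime] (D : GaussDatum N ℓ)

theorem subset_pair_of (S : Set ↥(modularFunctionFieldFull N))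
    (hS : S = {jFull N} ∨ S = {(jFull N)⁻¹} ∨ S = {jFull N, (jFull N)⁻¹}) :
    S ⊆ {jFull N, (jFull N)⁻¹} := by
  rcases hS with rfl | rfl | rfl
  · exact Set.singleton_subset_iff.mpr (Set.mem_insert _ _)
  · exact Set.singleton_subset_iff.mpr (Set.mem_insert_of_mem _ rfl)
  · exact subset_rfl

/-- Step (5) for all three charts. -/
theorem GaussDatum.kernel_all
    (hκ : C2KappaStatement N ℓ) (hcl : C2ClosedStatement N ℓ) (hG : C2GaussStatement N ℓ)
    (h3a : C3DegreeStatement N ℓ) (h3b : C3LiftStatement N ℓ)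
    (hdeg : IntermediateField.relrank (IntermediateField.adjoin ℚ {jq})
        (modularFunctionFieldFull N)
      ≤ IntermediateField.relrank (IntermediateField.adjoin (ZMod ℓ) {jqModC (ZMod ℓ)})
          (modularFunctionFieldFullC (ZMod ℓ) N))
    (hfin : IntermediateField.relrank (IntermediateField.adjoin ℚ {jq})
      (modularFunctionFieldFull N) < Cardinal.aleph0)
    (S : Set ↥(modularFunctionFieldFull N))
    (hS : S = {jFull N} ∨ S = {(jFull N)⁻¹} ∨ S = {jFull N, (jFull N)⁻¹})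
    (f : ↥(modularFunctionFieldFull N)) (hf : f ∈ chartAlg N ℓ S) (hfO : f ∈ D.OF)
    (hRed : D.RedF ⟨f, hfO⟩ = 0) :
    ∃ g : ↥(modularFunctionFieldFull N), g ∈ chartAlg N ℓ S ∧
      f = ((ℓ : ℕ) : ↥(modularFunctionFieldFull N)) * g := by
  rcases hS with rfl | rfl | rfl
  · exact D.kernel_single hκ hcl hG h3a h3b hdeg hfin _ (Or.inl rfl) f hf hfO hRed
  · exact D.kernel_single hκ hcl hG h3a h3b hdeg hfin _ (Or.inr rfl) f hf hfO hRed
  · have hpair : ({jFull N, (jFull N)⁻¹} : Set ↥(modularFunctionFieldFull N)) =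
        insert (jFull N)⁻¹ {jFull N} := Set.pair_comm _ _
    have hf' : f ∈ chartAlg N ℓ (insert (jFull N)⁻¹ {jFull N}) := by
      rw [← hpair]; exact hf
    obtain ⟨n, hn⟩ := exists_pow_mul_mem_chartAlg (N := N) (ℓ := ℓ) (S := {jFull N})
      (s := jFull N) rfl (jFull_ne_zero N) hf'
    have hyO : jFull N ^ n * f ∈ D.OF := mul_mem (pow_mem D.jFull_mem n) hfO
    have hRedy : D.RedF ⟨jFull N ^ n * f, hyO⟩ = 0 := by
      have : (⟨jFull N ^ n * f, hyO⟩ : D.OF) = ⟨jFull N, D.jFull_mem⟩ ^ n * ⟨f, hfO⟩ := rfl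
      rw [this, map_mul, hRed, mul_zero]
    obtain ⟨g, hg, hyg⟩ := D.kernel_single hκ hcl hG h3a h3b hdeg hfin _ (Or.inl rfl)
      (jFull N ^ n * f) hn hyO hRedy
    refine ⟨((jFull N)⁻¹) ^ n * g, ?_, ?_⟩
    · refine mul_mem (pow_mem (subset_chartAlg N ℓ _ (by simp)) n) ?_
      exact chartAlg_mono N ℓ (sFin_subset N) hg
    · have hj : jFull N ^ n ≠ 0 := pow_ne_zero _ (jFull_ne_zero N)
      apply mul_left_cancel₀ hj
      rw [hyg, inv_pow]
      field_simp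

/-- the reduction map on a chart algebra -/
def GaussDatum.redChart (S : Set ↥(modularFunctionFieldFull N))
    (hS : S ⊆ {jFull N, (jFull N)⁻¹}) : ↥(chartAlg N ℓ S) →+* LaurentSeries (ZMod ℓ) :=
  D.RedF.comp (((chartAlg N ℓ S).val.toRingHom).codRestrict D.OF
    (fun x => D.chartAlg_le S hS x.2))

theorem GaussDatum.redChart_apply (S : Set ↥(modularFunctionFieldFull N))
    (hS : S ⊆ {jFull N, (jFull N)⁻¹}) (x : ↥(chartAlg N ℓ S)) :
    D.redChart S hS x = D.RedF ⟨(x : ↥(modularFunctionFieldFull N)), D.chartAlg_le S hS x.2⟩ :=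
  rfl

end Final

/-- **IG-C glue**: the q-expansion principle from the interface statements C1, C2, C3. -/
theorem redStatement_of (N : ℕ) [NeZero N] (ℓ : ℕ) [Fact ℓ.Prime]
    (hC1 : Nonempty (GaussDatum N ℓ))
    (hκ : C2KappaStatement N ℓ) (hcl : C2ClosedStatement N ℓ) (hG : C2GaussStatement N ℓ)
    (h3a : C3DegreeStatement N ℓ) (h3b : C3LiftStatement N ℓ)
    (hdeg : IntermediateField.relrank (IntermediateField.adjoin ℚ {jq})
        (modularFunctionFieldFull N)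
      ≤ IntermediateField.relrank (IntermediateField.adjoin (ZMod ℓ) {jqModC (ZMod ℓ)})
          (modularFunctionFieldFullC (ZMod ℓ) N))
    (hfin : IntermediateField.relrank (IntermediateField.adjoin ℚ {jq})
      (modularFunctionFieldFull N) < Cardinal.aleph0)
    (S : Set ↥(modularFunctionFieldFull N))
    (hS : S = {jFull N} ∨ S = {(jFull N)⁻¹} ∨ S = {jFull N, (jFull N)⁻¹}) :
    ∃ red : ↥(chartAlg N ℓ S) →+* LaurentSeries (ZMod ℓ),
      RingHom.ker red = Ideal.span {(ℓ : ↥(chartAlg N ℓ S))} := by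
  obtain ⟨D⟩ := hC1
  have hSsub := subset_pair_of S hS
  refine ⟨D.redChart S hSsub, ?_⟩
  ext x
  rw [RingHom.mem_ker, Ideal.mem_span_singleton', D.redChart_apply]
  constructor
  · intro h
    obtain ⟨g, hg, hxg⟩ := D.kernel_all hκ hcl hG h3a h3b hdeg hfin S hS x x.2
      (D.chartAlg_le S hSsub x.2) h
    refine ⟨⟨g, hg⟩, Subtype.ext ?_⟩
    rw [hxg, mul_comm]
    rfl
  · rintro ⟨a, rfl⟩
    have h1 : (⟨((a * (ℓ : ↥(chartAlg N ℓ S)) : ↥(chartAlg N ℓ S)) :
          ↥(modularFunctionFieldFull N)), D.chartAlg_le S hSsub (a * (ℓ : ↥(chartAlg N ℓ S))).2⟩ :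
          D.OF) =
        ⟨(a : ↥(modularFunctionFieldFull N)), D.chartAlg_le S hSsub a.2⟩ *
          ⟨algebraMap ↥(jField N) ↥(modularFunctionFieldFull N) ((ℓ : ℕ) : ↥(jField N)),
            D.ellF_mem⟩ := by
      apply Subtype.ext
      show ((a * (ℓ : ↥(chartAlg N ℓ S)) : ↥(chartAlg N ℓ S)) : ↥(modularFunctionFieldFull N)) =
        (a : ↥(modularFunctionFieldFull N)) *
          algebraMap ↥(jField N) ↥(modularFunctionFieldFull N) ((ℓ : ℕ) : ↥(jField N))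
      rw [map_natCast]
      rfl
    rw [h1, map_mul, D.RedF_ell, mul_zero]

end Fermat.Agent.H91
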