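import Mathlib
import Fermat.Agent.H91.IgusaCGlue
import Fermat.Agent.H27.IgC.Degree

set_option autoImplicit false

noncomputable section

open ModularCurve ModularCurve.IgusaScheme

namespace Fermat.Agent.H91

section C3

variable (N : ℕ) [NeZero N] (ℓ : ℕ) [Fact ℓ.Prime]

theorem adjoin_jq_le_full :
    IntermediateField.adjoin ℚ {jq} ≤ modularFunctionFieldFull N := by
  rw [IntermediateField.adjoin_le_iff]
  intro x hx
  rw [Set.mem_singleton_iff] at hx
  rw [hx]
  exact (jFull N).2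

/-- converse of `coe_mem_adjoin_jq` -/
theorem mem_jField_of_coe_mem {y : LaurentSeries ℚ} (hy : y ∈ IntermediateField.adjoin ℚ {jq}) :
    ∃ hF : y ∈ modularFunctionFieldFull N,
      (⟨y, hF⟩ : ↥(modularFunctionFieldFull N)) ∈ jField N := by
  induction hy using IntermediateField.adjoin_induction with
  | mem x hx =>
    rw [Set.mem_singleton_iff] at hx
    subst hx
    exact ⟨(jFull N).2, IntermediateField.subset_adjoin ℚ _ (Set.mem_singleton _)⟩
  | algebraMap q =>
    refine ⟨IntermediateField.algebraMap_mem _ q, ?_⟩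
    have : (⟨algebraMap ℚ (LaurentSeries ℚ) q, IntermediateField.algebraMap_mem _ q⟩ :
        ↥(modularFunctionFieldFull N)) = algebraMap ℚ ↥(modularFunctionFieldFull N) q := by
      apply Subtype.ext
      show algebraMap ℚ (LaurentSeries ℚ) q =
        ((algebraMap ℚ ↥(modularFunctionFieldFull N) q : ↥(modularFunctionFieldFull N)) :
          LaurentSeries ℚ)
      rw [eq_ratCast, eq_ratCast]
      rfl
    rw [this]
    exact IntermediateField.algebraMap_mem _ q
  | add x y _ _ hx hy =>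
    obtain ⟨hx1, hx2⟩ := hx
    obtain ⟨hy1, hy2⟩ := hy
    refine ⟨add_mem hx1 hy1, ?_⟩
    have h := (jField N).add_mem hx2 hy2
    exact h
  | inv x _ hx =>
    obtain ⟨hx1, hx2⟩ := hx
    refine ⟨inv_mem hx1, ?_⟩
    have h := (jField N).inv_mem hx2
    exact h
  | mul x y _ _ hx hy =>
    obtain ⟨hx1, hx2⟩ := hx
    obtain ⟨hy1, hy2⟩ := hy
    refine ⟨mul_mem hx1 hy1, ?_⟩
    have h := (jField N).mul_mem hx2 hy2
    exact h

theorem jField_toSubfield_map :
    (jField N).toSubfield.map (algebraMap ↥(modularFunctionFieldFull N) (LaurentSeries ℚ)) =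
      (IntermediateField.adjoin ℚ {jq}).toSubfield := by
  ext x
  constructor
  · rintro ⟨c, hc, rfl⟩
    exact coe_mem_adjoin_jq c hc
  · intro hx
    obtain ⟨hF, h⟩ := mem_jField_of_coe_mem N hx
    exact ⟨⟨x, hF⟩, h, rfl⟩

/-- **[C3a]** -/
theorem c3Degree : C3DegreeStatement N ℓ := by
  intro hdeg hfin
  have hK₀ := jField_toSubfield_map N
  have hfd : FiniteDimensional ↥(jField N).toSubfield ↥(modularFunctionFieldFull N) :=
    Fermat.Agent.H27.finiteDimensional_of_map_eq N _ hK₀ hfin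
  obtain ⟨v, hv, hli⟩ := Fermat.Agent.H27.exists_linearIndependent_fullC N ℓ _ hK₀ hdeg hfin
  exact ⟨hfd, v, hv, hli⟩

/-- **[C3b]** -/
theorem c3Lift : C3LiftStatement N ℓ := by
  intro D y hy
  have hunit : ∀ x : D.OF, D.RedF x ≠ 0 → ∃ y : D.OF, D.RedF y = (D.RedF x)⁻¹ := by
    intro x hx
    have hinv : (x : ↥(modularFunctionFieldFull N))⁻¹ ∈ D.OF :=
      D.inv_mem_of_red_ne_zero (x : ↥(modularFunctionFieldFull N)).2 x.2 hx
    refine ⟨⟨_, hinv⟩, ?_⟩
    have hx0 : (x : ↥(modularFunctionFieldFull N)) ≠ 0 := by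
      intro h
      apply hx
      have : x = 0 := Subtype.ext h
      rw [this, map_zero]
    have h1 : D.RedF (⟨_, hinv⟩ * x) = 1 := by
      rw [show (⟨_, hinv⟩ * x : D.OF) = 1 from Subtype.ext (inv_mul_cancel₀ hx0), map_one]
    rw [map_mul] at h1
    exact eq_inv_of_mul_eq_one_left h1
  have hj : ∀ (d : ℕ) [NeZero d], d ∣ N →
      ∃ x : D.OF, D.RedF x = qExpand (ZMod ℓ) d (jqModC (ZMod ℓ)) := by
    intro d _ hd
    obtain ⟨h, hred⟩ := D.Red_int (qExpand ℤ d (jqModC ℤ))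
    have e : coeffMap (Int.castRingHom ℚ) (qExpand ℤ d (jqModC ℤ)) = qExpand ℚ d jq := by
      rw [coeffMap_qExpand, coeffMap_jqModC]
      rfl
    have hO : qExpand ℚ d jq ∈ D.O := by rw [← e]; exact h
    refine ⟨⟨⟨qExpand ℚ d jq, jqd_mem_full N hd⟩, hO⟩, ?_⟩
    show D.Red ⟨qExpand ℚ d jq, hO⟩ = _
    have h1 : D.Red ⟨qExpand ℚ d jq, hO⟩ =
        D.Red ⟨coeffMap (Int.castRingHom ℚ) (qExpand ℤ d (jqModC ℤ)), h⟩ := by
      congr 1
      exact Subtype.ext e.symm
    rw [h1, hred, coeffMap_qExpand, coeffMap_jqModC]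
  obtain ⟨x, hx⟩ := Fermat.Agent.H27.fullC_le_range_red ℓ N D.OF D.RedF hunit hj y hy
  exact ⟨(x : ↥(modularFunctionFieldFull N)), (x : ↥(modularFunctionFieldFull N)).2, x.2, hx⟩

end C3

end Fermat.Agent.H91
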