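import Mathlib
import Fermat.Agent.H91.IgusaCGlue
import Fermat.Agent.H91.IgusaCC3
import Fermat.Agent.H66.IgusaGaussDatum

/-!
# IG-C: the q-expansion principle, reduced to the three [C2] statements
-/

set_option autoImplicit false

noncomputable section

open ModularCurve ModularCurve.IgusaScheme

namespace Fermat.Agent.H91

/-- IG-C from the three Gauss-type facts about `ℚ(j)` ([C2]); everything else is proved. -/
theorem redStatement_of_c2 (N : ℕ) [NeZero N] (ℓ : ℕ) [Fact ℓ.Prime]
    (hκ : C2KappaStatement N ℓ) (hcl : C2ClosedStatement N ℓ) (hG : C2GaussStatement N ℓ)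
    (hdeg : IntermediateField.relrank (IntermediateField.adjoin ℚ {jq})
        (modularFunctionFieldFull N)
      ≤ IntermediateField.relrank (IntermediateField.adjoin (ZMod ℓ) {jqModC (ZMod ℓ)})
          (modularFunctionFieldFullC (ZMod ℓ) N))
    (hfin : IntermediateField.relrank (IntermediateField.adjoin ℚ {jq})
      (modularFunctionFieldFull N) < Cardinal.aleph0)
    (S : Set ↥(modularFunctionFieldFull N))
    (hS : S = {jFull N} ∨ S = {(jFull N)⁻¹} ∨ S = {jFull N, (jFull N)⁻¹}) :
    ∃ red : ↥(chartAlg N ℓ S) →+* LaurentSeries (ZMod ℓ),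
      RingHom.ker red = Ideal.span {(ℓ : ↥(chartAlg N ℓ S))} :=
  redStatement_of N ℓ (Fermat.Agent.H66.gaussDatum N ℓ) hκ hcl hG (c3Degree N ℓ) (c3Lift N ℓ)
    hdeg hfin S hS

end Fermat.Agent.H91
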