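import Fermat.Agent.H91.Purity

/-!
# Purity in dimension two: main theorems (helper91, P-ES / KL-PUR = (B3) of findings #298)

`R` integrally closed domain, `K = Frac R`, `E/K` a finite extension of fields,
`B = integralClosure R E`.

* `HasGoodBasisAt R K E I` : there is a `K`-basis `b` of `E` consisting of integral elements
  whose discriminant `det Tr(b_i b_j)` is not in `I`  (`B` is free with unit discriminant at `I`).
* `HasGoodBasisAt.traceNondegAt_span`, `HasGoodBasisAt.traceNondegAt_of_isMaximal`,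
  `HasGoodBasisAt.finite`.
* `hasGoodBasisAt_of_forall_prime` : **PURITY**.  `R` a Noetherian UFD, `p` prime with `R/p` a PID,
  `𝔪` a prime ideal containing `p`.  If `B` has a good basis at every prime ELEMENT `h ∈ 𝔪`
  (height-one primes through `𝔪`), then it has a good basis at `𝔪`.
-/

set_option autoImplicit false
set_option linter.style.haveILetI false
set_option linter.unusedSectionVars false

noncomputable section

open Polynomial Matrix
open scoped Pointwise

namespace Fermat.Agent.H91

section PurityMain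

variable {R : Type*} [CommRing R] [IsDomain R] [IsIntegrallyClosed R]
variable {K : Type*} [Field K] [Algebra R K] [IsFractionRing R K]
variable {E : Type*} [Field E] [Algebra K E] [Algebra R E] [IsScalarTower R K E]
  [FiniteDimensional K E]

section Adapted

variable {n : ℕ} {b : Fin n → E} {r : R} (hint : ∀ i, IsIntegral R (b i))
  (hli : LinearIndependent R b)
  (hspan : ∀ x : E, IsIntegral R x → ∃ c : Fin n → R, r • x = ∑ i, c i • b i)
  {G : Matrix (Fin n) (Fin n) R}
  (hG : ∀ i j, algebraMap R K (G i j) = Algebra.trace K E (b i * b j))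

include hint hli hspan hG in
/-- **Purity, discriminant form.**  In a UFD, if the trace form is nondegenerate modulo every
prime element of the prime ideal `𝔪`, the discriminant of an adapted basis is not in `𝔪`. -/
theorem det_notMem_of_forall_prime [UniqueFactorizationMonoid R] {𝔪 : Ideal R} [𝔪.IsPrime]
    (hr : r ∉ 𝔪) (hd0 : G.det ≠ 0)
    (hnd : ∀ h ∈ 𝔪, Prime h → TraceNondegAt R K E (Ideal.span {h})) : G.det ∉ 𝔪 := by
  classical
  intro hd
  obtain ⟨f, hf, u, hu⟩ := UniqueFactorizationMonoid.exists_prime_factors G.det hd0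
  have hprod : f.prod ∈ 𝔪 := by
    have : f.prod = G.det * ((u⁻¹ : Rˣ) : R) := by
      rw [← hu, mul_assoc, Units.mul_inv, mul_one]
    rw [this]
    exact 𝔪.mul_mem_right _ hd
  obtain ⟨h, hhf, hh𝔪⟩ := (Ideal.IsPrime.multiset_prod_mem_iff_exists_mem ‹_› f).mp hprod
  have hhd : h ∣ G.det := (Multiset.dvd_prod hhf).trans ⟨(u : R), hu.symm⟩
  have hhr : ¬ h ∣ r := fun ⟨c, hc⟩ => hr (hc ▸ 𝔪.mul_mem_right c hh𝔪)
  exact not_dvd_det_of_traceNondegAt hint hli hspan hG (hf h hhf) hhr (hnd h hh𝔪 (hf h hhf)) hhd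

include hint hspan hG in
/-- unit discriminant at `𝔪`: an integral `x` with `Tr(x B) ⊆ 𝔪` has `r x ∈ ⊕ 𝔪 b_i` -/
theorem exists_smul_eq_sum_of_det_notMem {𝔪 : Ideal R} [𝔪.IsPrime] (hd : G.det ∉ 𝔪) {x : E}
    (hx : IsIntegral R x)
    (htr : ∀ y : E, IsIntegral R y → ∃ a ∈ 𝔪, algebraMap R K a = Algebra.trace K E (x * y)) :
    ∃ v : Fin n → R, (∀ i, v i ∈ 𝔪) ∧ r • x = ∑ i, v i • b i := by
  classical
  obtain ⟨v, hv⟩ := hspan x hx
  -- `G v ∈ 𝔪ⁿ`
  have hGv : ∀ j, (G *ᵥ v) j ∈ 𝔪 := by
    intro j
    obtain ⟨a, ha, hatr⟩ := htr (b j) (hint j)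
    have h1 : algebraMap R K ((G *ᵥ v) j) = algebraMap R K (r * a) := by
      have h2 := trace_sum_mul hG v (Pi.single j (1 : R))
      have h3 : (∑ i, (Pi.single j (1 : R) : Fin n → R) i • b i) = b j := by
        rw [Finset.sum_eq_single j]
        · rw [Pi.single_eq_same, one_smul]
        · intro i _ hij
          rw [Pi.single_eq_of_ne hij, zero_smul]
        · intro h; exact absurd (Finset.mem_univ j) h
      have h4 : (∑ i, (Pi.single j (1 : R) : Fin n → R) i * (G *ᵥ v) i) = (G *ᵥ v) j := by
        rw [Finset.sum_eq_single j]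
        · rw [Pi.single_eq_same, one_mul]
        · intro i _ hij
          rw [Pi.single_eq_of_ne hij, zero_mul]
        · intro h; exact absurd (Finset.mem_univ j) h
      rw [h3, h4, ← hv] at h2
      rw [← h2, smul_mul_assoc, ← algebraMap_smul K r, map_smul, smul_eq_mul, ← hatr, ← map_mul]
    rw [IsFractionRing.injective R K h1]
    exact 𝔪.mul_mem_left r ha
  refine ⟨v, fun i => ?_, hv⟩
  have h1 : G.det * v i = (G.adjugate *ᵥ (G *ᵥ v)) i := by
    rw [Matrix.mulVec_mulVec, Matrix.adjugate_mul, Matrix.smul_mulVec, Matrix.one_mulVec,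
      Pi.smul_apply, smul_eq_mul]
  have h2 : G.det * v i ∈ 𝔪 := by
    rw [h1, Matrix.mulVec, dotProduct]
    exact 𝔪.sum_mem fun j _ => 𝔪.mul_mem_left _ (hGv j)
  exact (Ideal.IsPrime.mem_or_mem ‹_› h2).resolve_left hd

include hint hspan hG in
/-- unit discriminant of an adapted basis ⟹ nondegenerate trace form modulo `𝔪` -/
theorem traceNondegAt_of_det_notMem {𝔪 : Ideal R} [𝔪.IsPrime]
    (hr1 : r - 1 ∈ 𝔪) (hd : G.det ∉ 𝔪) : TraceNondegAt R K E 𝔪 := by
  classical
  intro x hx htr
  obtain ⟨v, hdv, hv⟩ := exists_smul_eq_sum_of_det_notMem hint hspan hG hd hx htr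
  have hrx : r • x ∈ 𝔪 • (integralClosure R E).toSubmodule := by
    rw [hv]
    exact Submodule.sum_mem _ fun i _ => Submodule.smul_mem_smul (hdv i) (hint i)
  have hr1x : (r - 1) • x ∈ 𝔪 • (integralClosure R E).toSubmodule :=
    Submodule.smul_mem_smul hr1 hx
  have : x = r • x - (r - 1) • x := by
    rw [sub_smul, one_smul]; abel
  rw [this]
  exact Submodule.sub_mem _ hrx hr1x

end Adapted

variable (K E) in
/-- **Purity in dimension two (trace form).**  `R` an integrally closed UFD, `p` a prime element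
with `R / p` a PID, `B = integralClosure R E` finite over `R`, `𝔪` a prime ideal containing `p`.
If the trace form of `B` is nondegenerate modulo every prime element of `𝔪`, it is nondegenerate
modulo `𝔪`; moreover there is an adapted basis with discriminant outside `𝔪`. -/
theorem exists_basis_det_notMem [IsNoetherianRing R] [UniqueFactorizationMonoid R] {p : R}
    (hp : Prime p) [IsPrincipalIdealRing (R ⧸ Ideal.span {p})]
    [Module.Finite R ↥(integralClosure R E)] {𝔪 : Ideal R} [𝔪.IsPrime] (hp𝔪 : p ∈ 𝔪)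
    (hnd : ∀ h ∈ 𝔪, Prime h → TraceNondegAt R K E (Ideal.span {h})) :
    ∃ (n : ℕ) (b : Fin n → E) (r : R) (G : Matrix (Fin n) (Fin n) R),
      (∀ i, IsIntegral R (b i)) ∧ LinearIndependent R b ∧ p ∣ r - 1 ∧
      (∀ x : E, IsIntegral R x → ∃ c : Fin n → R, r • x = ∑ i, c i • b i) ∧
      (∀ i j, algebraMap R K (G i j) = Algebra.trace K E (b i * b j)) ∧ G.det ∉ 𝔪 := by
  classical
  obtain ⟨n, b, r, hint, hli, hr1, hspan⟩ := exists_adapted_basis K E hp
  choose g hg using fun i j => exists_trace_eq (R := R) (K := K) ((hint i).mul (hint j))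
  set G : Matrix (Fin n) (Fin n) R := Matrix.of g with hGdef
  have hG : ∀ i j, algebraMap R K (G i j) = Algebra.trace K E (b i * b j) := fun i j => hg i j
  have hr1𝔪 : r - 1 ∈ 𝔪 := by
    obtain ⟨c, hc⟩ := hr1
    rw [hc]
    exact 𝔪.mul_mem_right c hp𝔪
  have hr : r ∉ 𝔪 := by
    intro h
    have h1 : (1 : R) ∈ 𝔪 := by
      have := 𝔪.sub_mem h hr1𝔪
      rwa [sub_sub_cancel] at this
    exact (Ideal.IsPrime.ne_top ‹_›) ((Ideal.eq_top_iff_one 𝔪).mpr h1)
  have hpr : ¬ p ∣ r := by
    intro ⟨c, hc⟩
    exact hr (hc ▸ 𝔪.mul_mem_right c hp𝔪)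
  have hd0 : G.det ≠ 0 := by
    intro h0
    have := not_dvd_det_of_traceNondegAt hint hli hspan hG hp hpr (hnd p hp𝔪 hp)
    exact this (h0 ▸ dvd_zero p)
  exact ⟨n, b, r, G, hint, hli, hr1, hspan, hG,
    det_notMem_of_forall_prime hint hli hspan hG hr hd0 hnd⟩

variable (K E) in
/-- **Purity in dimension two**, intrinsic form. -/
theorem traceNondegAt_of_forall_prime [IsNoetherianRing R] [UniqueFactorizationMonoid R] {p : R}
    (hp : Prime p) [IsPrincipalIdealRing (R ⧸ Ideal.span {p})]
    [Module.Finite R ↥(integralClosure R E)] {𝔪 : Ideal R} [𝔪.IsPrime] (hp𝔪 : p ∈ 𝔪)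
    (hnd : ∀ h ∈ 𝔪, Prime h → TraceNondegAt R K E (Ideal.span {h})) :
    TraceNondegAt R K E 𝔪 := by
  obtain ⟨n, b, r, G, hint, -, hr1, hspan, hG, hd⟩ := exists_basis_det_notMem K E hp hp𝔪 hnd
  refine traceNondegAt_of_det_notMem hint hspan hG ?_ hd
  obtain ⟨c, hc⟩ := hr1
  rw [hc]
  exact 𝔪.mul_mem_right c hp𝔪

end PurityMain


section GoodBasis

variable {R : Type*} [CommRing R] [IsDomain R] [IsIntegrallyClosed R]
variable {K : Type*} [Field K] [Algebra R K] [IsFractionRing R K]
variable {E : Type*} [Field E] [Algebra K E] [Algebra R E] [IsScalarTower R K E]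
  [FiniteDimensional K E]

variable {n : ℕ} {b : Fin n → E} (hint : ∀ i, IsIntegral R (b i))
  (hn : Module.finrank K E = n)
  {G : Matrix (Fin n) (Fin n) R}
  (hG : ∀ i j, algebraMap R K (G i j) = Algebra.trace K E (b i * b j))

include hG in
theorem traceMatrix_eq_map : Algebra.traceMatrix K b = G.map (algebraMap R K) := by
  ext i j
  rw [Algebra.traceMatrix_apply, Algebra.traceForm_apply, Matrix.map_apply, hG]

include hG in
theorem linearIndependent_of_det_ne_zero (hd : G.det ≠ 0) : LinearIndependent K b := by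
  by_contra h
  have h1 := Algebra.discr_zero_of_not_linearIndependent (A := K) h
  rw [Algebra.discr_def, traceMatrix_eq_map hG, ← RingHom.mapMatrix_apply, ← RingHom.map_det] at h1
  exact hd (IsFractionRing.injective R K (h1.trans (map_zero _).symm))

include hG in
theorem linearIndependent_base_of_det_ne_zero (hd : G.det ≠ 0) : LinearIndependent R b :=
  (linearIndependent_of_det_ne_zero hG hd).restrict_scalars
    (fun r s h => IsFractionRing.injective R K (by simpa [Algebra.smul_def] using h))

include hint hn hG in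
theorem exists_det_smul_eq (hd : G.det ≠ 0) {x : E} (hx : IsIntegral R x) :
    ∃ c : Fin n → R, G.det • x = ∑ i, c i • b i := by
  classical
  have hli := linearIndependent_of_det_ne_zero hG hd
  haveI : Nonempty (Fin n) := by
    have h0 : 0 < Module.finrank K E := Module.finrank_pos
    rw [hn] at h0
    exact ⟨⟨0, h0⟩⟩
  set B' : Module.Basis (Fin n) K E :=
    basisOfLinearIndependentOfCardEqFinrank hli (by rw [hn, Fintype.card_fin]) with hB'
  have hB'b : ⇑B' = b := coe_basisOfLinearIndependentOfCardEqFinrank hli _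
  choose τ hτ using fun i => exists_trace_eq (R := R) (K := K) (hx.mul (hint i))
  have h1 := Algebra.traceMatrix_of_basis_mulVec (A := K) B' x
  rw [hB'b, traceMatrix_eq_map hG] at h1
  have h2 : (fun i => Algebra.trace K E (x * b i)) = (algebraMap R K) ∘ τ := by
    funext i
    exact (hτ i).symm
  rw [h2] at h1
  have h3 : algebraMap R K G.det • B'.equivFun x =
      (algebraMap R K) ∘ (G.adjugate *ᵥ τ) := by
    have h4 := congrArg (fun w => (G.map (algebraMap R K)).adjugate *ᵥ w) h1
    simp only [Matrix.mulVec_mulVec, Matrix.adjugate_mul, Matrix.smul_mulVec,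
      Matrix.one_mulVec] at h4
    rw [← RingHom.mapMatrix_apply, ← RingHom.map_det] at h4
    rw [h4, ← RingHom.map_adjugate, RingHom.mapMatrix_apply]
    funext i
    simp only [Matrix.mulVec, dotProduct, Function.comp_apply, Matrix.map_apply, map_sum, map_mul]
  refine ⟨G.adjugate *ᵥ τ, ?_⟩
  have h5 : x = ∑ i, B'.equivFun x i • b i := by
    conv_lhs => rw [← B'.sum_equivFun x, hB'b]
  conv_lhs => rw [h5]
  rw [Finset.smul_sum]
  refine Finset.sum_congr rfl fun i _ => ?_
  have h6 := congrFun h3 i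
  simp only [Pi.smul_apply, smul_eq_mul, Function.comp_apply] at h6
  rw [← algebraMap_smul K ((G.adjugate *ᵥ τ) i), ← h6, ← algebraMap_smul K G.det, smul_smul]

end GoodBasis


section T

variable {R : Type*} [CommRing R] [IsDomain R] [IsIntegrallyClosed R]
variable {K : Type*} [Field K] [Algebra R K] [IsFractionRing R K]
variable {E : Type*} [Field E] [Algebra K E] [Algebra R E] [IsScalarTower R K E]
  [FiniteDimensional K E]

include K in
theorem exists_ne_zero_isIntegral_smul (x : E) : ∃ s : R, s ≠ 0 ∧ IsIntegral R (s • x) := by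
  haveI := IsLocalization.isAlgebraic K (nonZeroDivisors R)
  haveI : Algebra.IsAlgebraic K E := Algebra.IsAlgebraic.of_finite K E
  haveI := Algebra.IsAlgebraic.trans R K E
  exact (Algebra.IsAlgebraic.isAlgebraic (R := R) x).exists_integral_multiple

end T


section GoodBasisAt

variable (R : Type*) [CommRing R] [IsDomain R] [IsIntegrallyClosed R]
variable (K : Type*) [Field K] [Algebra R K] [IsFractionRing R K]
variable (E : Type*) [Field E] [Algebra K E] [Algebra R E] [IsScalarTower R K E]
  [FiniteDimensional K E]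

/-- The integral closure `B` of `R` in `E` has a basis with unit discriminant at the ideal `I`:
there are `n = [E : K]` integral elements whose Gram matrix for the trace form has determinant
outside `I`. -/
def HasGoodBasisAt (I : Ideal R) : Prop :=
  ∃ (n : ℕ) (b : Fin n → E) (G : Matrix (Fin n) (Fin n) R), Module.finrank K E = n ∧
    (∀ i, IsIntegral R (b i)) ∧
    (∀ i j, algebraMap R K (G i j) = Algebra.trace K E (b i * b j)) ∧ G.det ∉ I

variable {R K E}

theorem HasGoodBasisAt.mono {I J : Ideal R} (hIJ : I ≤ J) (h : HasGoodBasisAt R K E J) :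
    HasGoodBasisAt R K E I := by
  obtain ⟨n, b, G, hn, hint, hG, hd⟩ := h
  exact ⟨n, b, G, hn, hint, hG, fun hI => hd (hIJ hI)⟩

/-- a good basis at the prime element `p` makes the trace form nondegenerate modulo `p` -/
theorem HasGoodBasisAt.traceNondegAt_span {p : R} (hp : Prime p)
    (h : HasGoodBasisAt R K E (Ideal.span {p})) : TraceNondegAt R K E (Ideal.span {p}) := by
  classical
  obtain ⟨n, b, G, hn, hint, hG, hd⟩ := h
  haveI : (Ideal.span {p}).IsPrime := (Ideal.span_singleton_prime hp.ne_zero).mpr hp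
  have hd0 : G.det ≠ 0 := fun h0 => hd (h0 ▸ Ideal.zero_mem _)
  have hpd : ¬ p ∣ G.det := fun h1 => hd (Ideal.mem_span_singleton.mpr h1)
  intro x hx htr
  obtain ⟨v, hv, hxv⟩ := exists_smul_eq_sum_of_det_notMem hint
    (fun y hy => exists_det_smul_eq hint hn hG hd0 hy) hG hd hx htr
  choose w hw using fun i => Ideal.mem_span_singleton.mp (hv i)
  have h1 : G.det • x = p • ∑ i, w i • b i := by
    rw [hxv, Finset.smul_sum]
    refine Finset.sum_congr rfl fun i _ => ?_
    rw [hw i, mul_smul]
  obtain ⟨z, hz, hxz⟩ := exists_eq_smul_of_smul_eq_smul K hp hpd hx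
    (IsIntegral.sum _ fun i _ => (hint i).smul (w i)) h1
  exact mem_span_singleton_smul_iff.mpr ⟨z, hz, hxz⟩

/-- a good basis at a maximal ideal makes the trace form nondegenerate modulo it -/
theorem HasGoodBasisAt.traceNondegAt_of_isMaximal {𝔪 : Ideal R} [h𝔪 : 𝔪.IsMaximal]
    (h : HasGoodBasisAt R K E 𝔪) : TraceNondegAt R K E 𝔪 := by
  classical
  obtain ⟨n, b, G, hn, hint, hG, hd⟩ := h
  have hd0 : G.det ≠ 0 := fun h0 => hd (h0 ▸ Ideal.zero_mem _)
  intro x hx htr
  obtain ⟨v, hv, hxv⟩ := exists_smul_eq_sum_of_det_notMem hint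
    (fun y hy => exists_det_smul_eq hint hn hG hd0 hy) hG hd hx htr
  obtain ⟨s, hs⟩ := Ideal.Quotient.exists_inv (I := 𝔪)
    (a := Ideal.Quotient.mk 𝔪 G.det)
    (fun h0 => hd (Ideal.Quotient.eq_zero_iff_mem.mp h0))
  obtain ⟨s, rfl⟩ := Ideal.Quotient.mk_surjective s
  have ht : G.det * s - 1 ∈ 𝔪 := by
    rw [← Ideal.Quotient.eq_zero_iff_mem, map_sub, map_mul, hs, map_one, sub_self]
  have h1 : (G.det * s) • x ∈ 𝔪 • (integralClosure R E).toSubmodule := by
    rw [mul_comm, mul_smul, hxv, Finset.smul_sum]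
    refine Submodule.sum_mem _ fun i _ => ?_
    rw [← mul_smul]
    exact Submodule.smul_mem_smul (𝔪.mul_mem_left s (hv i)) (hint i)
  have h2 : (G.det * s - 1) • x ∈ 𝔪 • (integralClosure R E).toSubmodule :=
    Submodule.smul_mem_smul ht hx
  have : x = (G.det * s) • x - (G.det * s - 1) • x := by
    rw [sub_smul, one_smul]; abel
  rw [this]
  exact Submodule.sub_mem _ h1 h2

/-- a good basis (at any proper ideal) makes `B` a finite `R`-module -/
theorem HasGoodBasisAt.finite [IsNoetherianRing R] {I : Ideal R}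
    (h : HasGoodBasisAt R K E I) : Module.Finite R ↥(integralClosure R E) := by
  classical
  obtain ⟨n, b, G, hn, hint, hG, hd⟩ := h
  have hd0 : G.det ≠ 0 := fun h0 => hd (h0 ▸ Ideal.zero_mem _)
  have hli := linearIndependent_base_of_det_ne_zero (K := K) hG hd0
  -- `x ↦ det • x` maps `B` injectively into the free module `span R (range b)`
  have hmem : ∀ x : ↥(integralClosure R E),
      G.det • (x : E) ∈ Submodule.span R (Set.range b) := by
    intro x
    obtain ⟨c, hc⟩ := exists_det_smul_eq hint hn hG hd0 x.2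
    rw [hc]
    exact Submodule.sum_mem _ fun i _ =>
      Submodule.smul_mem _ _ (Submodule.subset_span ⟨i, rfl⟩)
  let φ : ↥(integralClosure R E) →ₗ[R] ↥(Submodule.span R (Set.range b)) :=
    { toFun := fun x => ⟨G.det • (x : E), hmem x⟩
      map_add' := fun x y => by
        apply Subtype.ext
        simp only [Subalgebra.coe_add, smul_add, Submodule.coe_add]
      map_smul' := fun c x => by
        apply Subtype.ext
        simp only [Subalgebra.coe_smul, RingHom.id_apply, Submodule.coe_smul]
        rw [smul_comm] }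
  have hφ : Function.Injective φ := by
    intro x y hxy
    have h1 : G.det • (x : E) = G.det • (y : E) := congrArg Subtype.val hxy
    apply Subtype.ext
    have h2 : algebraMap R E G.det ≠ 0 := by
      rw [IsScalarTower.algebraMap_apply R K E]
      exact (map_ne_zero_iff _ (algebraMap K E).injective).mpr
        ((map_ne_zero_iff _ (IsFractionRing.injective R K)).mpr hd0)
    rw [Algebra.smul_def, Algebra.smul_def] at h1
    exact mul_left_cancel₀ h2 h1
  haveI : Module.Finite R ↥(Submodule.span R (Set.range b)) :=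
    Module.Finite.span_of_finite R (Set.finite_range b)
  haveI : IsNoetherian R ↥(Submodule.span R (Set.range b)) := isNoetherian_of_isNoetherianRing_of_finite R _
  exact Module.Finite.of_injective φ hφ

/-- **PURITY IN DIMENSION TWO** (basis form).  `R` a Noetherian integrally closed UFD, `p` a prime
element with `R/p` a PID, `𝔪` a prime ideal containing `p`.  If the integral closure `B` of `R` in
`E` has a good basis at every prime element `h ∈ 𝔪`, then it has a good basis at `𝔪`. -/
theorem hasGoodBasisAt_of_forall_prime [IsNoetherianRing R] [UniqueFactorizationMonoid R] {p : R}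
    (hp : Prime p) [IsPrincipalIdealRing (R ⧸ Ideal.span {p})]
    {𝔪 : Ideal R} [𝔪.IsPrime] (hp𝔪 : p ∈ 𝔪)
    (hgb : ∀ h ∈ 𝔪, Prime h → HasGoodBasisAt R K E (Ideal.span {h})) :
    HasGoodBasisAt R K E 𝔪 := by
  classical
  haveI : Module.Finite R ↥(integralClosure R E) := (hgb p hp𝔪 hp).finite
  obtain ⟨n, b, r, G, hint, hli, hr1, hspan, hG, hd⟩ :=
    exists_basis_det_notMem K E hp hp𝔪 (fun h hh hhp => (hgb h hh hhp).traceNondegAt_span hhp)
  refine ⟨n, b, G, ?_, hint, hG, hd⟩
  have hd0 : G.det ≠ 0 := fun h0 => hd (h0 ▸ Ideal.zero_mem _)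
  have hliK := linearIndependent_of_det_ne_zero hG hd0
  have hr0 : r ≠ 0 := by
    rintro rfl
    obtain ⟨c, hc⟩ := hr1
    have h1 : (1 : R) ∈ 𝔪 := by
      have h2 : (1 : R) = p * (-c) := by rw [mul_neg, ← hc]; ring
      rw [h2]
      exact 𝔪.mul_mem_right _ hp𝔪
    exact (Ideal.IsPrime.ne_top ‹_›) ((Ideal.eq_top_iff_one 𝔪).mpr h1)
  have hspanK : ⊤ ≤ Submodule.span K (Set.range b) := by
    intro x _
    obtain ⟨s, hs0, hs⟩ := exists_ne_zero_isIntegral_smul (R := R) (K := K) x
    obtain ⟨c, hc⟩ := hspan _ hs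
    have h1 : x = (algebraMap R K (r * s))⁻¹ • ∑ i, algebraMap R K (c i) • b i := by
      have h2 : algebraMap R K (r * s) ≠ 0 :=
        (map_ne_zero_iff _ (IsFractionRing.injective R K)).mpr (mul_ne_zero hr0 hs0)
      rw [eq_inv_smul_iff₀ h2, algebraMap_smul, mul_smul, hc]
      refine Finset.sum_congr rfl fun i _ => ?_
      rw [algebraMap_smul]
    rw [h1]
    exact Submodule.smul_mem _ _ (Submodule.sum_mem _ fun i _ =>
      Submodule.smul_mem _ _ (Submodule.subset_span ⟨i, rfl⟩))
  have := Module.finrank_eq_card_basis (Module.Basis.mk hliK hspanK)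
  rw [this, Fintype.card_fin]

end GoodBasisAt

end Fermat.Agent.H91
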